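import Fermat.Agent.S55.H69.InvRes
import Fermat.Agent.S55.H66.C3Main

/-!
# Program C / C3, helper69: `LeafInvRes`, unconditional

`leafInvRes q : H66.LeafInvRes q` — restriction multiplies the local invariant by the degree:
`inv_{E/L} (res x) = [L : F] • inv_{E/F} x`.  Verbatim the leaf of `H66/InvSpec.lean`, from
`leafInvRes_of` and the unconditional exports of `H66/C3Main.lean`.
-/

set_option autoImplicit false

namespace Fermat.Agent.S55.H69

open Fermat.Agent.S55.H66

/-- **C3 leaf V6 (`LeafInvRes`), verbatim and unconditional.** -/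
theorem leafInvRes (q : ℕ) [Fact q.Prime] : LeafInvRes q :=
  leafInvRes_of (c3_inv q) (c3_invUnr q) (c3_invInfl q) (c3_unram q) (c3_unramUnique q)
    (c3_frob q) (c3_h2Unram q) (c3_h2Le q) (c3_inflInj q) (c3_infRes q) (c3_resInflUnram q)

end Fermat.Agent.S55.H69
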