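import Fermat.Agent.S55.H69.UnitGalois

/-!
# Program C / C3 leaf L4, abstract core (helper69): finite index of `1 + ϖ^M O`

`relIndex_ne_zero_of_residues`: if `O` has finitely many residues modulo `ϖ^M`, a subgroup `U` of
`Lˣ` consists of units of `O` and `V ⊇ 1 + ϖ^M O`, then `V` has finite (relative) index in `U`.

`exists_unit_subgroup_of_galois_of_residues`: the cohomologically trivial subgroup `V` of
`exists_unit_subgroup_of_galois`, together with `V.relIndex U ≠ 0` for every such `U`.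
-/

set_option autoImplicit false

namespace Fermat.Agent.S55.H69

/-- **Finite index.** -/
theorem relIndex_ne_zero_of_residues {L : Type*} [Field L] (O : Subring L) (ϖ : L) (M : ℕ)
    (T : Set L) (hT : T.Finite) (hres : ∀ x ∈ O, ∃ t ∈ T, ∃ e ∈ O, x = t + ϖ ^ M * e)
    (U V : Subgroup Lˣ) (hU : ∀ u ∈ U, (u : L) ∈ O ∧ ((u⁻¹ : Lˣ) : L) ∈ O)
    (hV : ∀ u : Lˣ, (∃ e ∈ O, (u : L) = 1 + ϖ ^ M * e) → u ∈ V) :
    V.relIndex U ≠ 0 := by
  classical
  -- the residue of an element of `U`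
  have hr : ∀ u : U, ∃ t : T, ∃ e ∈ O, ((u : Lˣ) : L) = (t : L) + ϖ ^ M * e := by
    intro u
    obtain ⟨t, ht, e, he, hue⟩ := hres _ (hU u u.2).1
    exact ⟨⟨t, ht⟩, e, he, hue⟩
  choose r hr' using hr
  -- same residue ⇒ same coset
  have hsame : ∀ u u' : U, r u = r u' → (u⁻¹ * u' : U) ∈ V.subgroupOf U := by
    intro u u' huu
    obtain ⟨e, he, hue⟩ := hr' u
    obtain ⟨e', he', hue'⟩ := hr' u'
    rw [Subgroup.mem_subgroupOf]
    apply hV
    refine ⟨(((u : Lˣ)⁻¹ : Lˣ) : L) * (e' - e), O.mul_mem (hU u u.2).2 (O.sub_mem he' he), ?_⟩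
    have h1 : ((u' : Lˣ) : L) = ((u : Lˣ) : L) + ϖ ^ M * (e' - e) := by
      rw [hue', hue, huu]; ring
    have h2 : (((u : Lˣ)⁻¹ : Lˣ) : L) * ((u : Lˣ) : L) = 1 := by
      rw [← Units.val_mul, inv_mul_cancel, Units.val_one]
    show (((u⁻¹ * u' : U) : Lˣ) : L) = _
    rw [Subgroup.coe_mul, Subgroup.coe_inv, Units.val_mul, h1, mul_add, h2]
    ring
  haveI : Finite T := hT
  -- the quotient injects into the residues
  have hfin : Finite (U ⧸ V.subgroupOf U) := by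
    let s : U ⧸ V.subgroupOf U → T := fun c => r (Quotient.out c)
    refine Finite.of_injective s fun c c' hcc => ?_
    have h1 := hsame _ _ hcc
    have h2 : (QuotientGroup.mk (Quotient.out c) : U ⧸ V.subgroupOf U) =
        QuotientGroup.mk (Quotient.out c') := QuotientGroup.eq.mpr h1
    have h3 : ∀ c : U ⧸ V.subgroupOf U, (QuotientGroup.mk (Quotient.out c) : U ⧸ V.subgroupOf U) = c :=
      fun c => Quotient.out_eq c
    rw [h3, h3] at h2
    exact h2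
  exact Subgroup.index_ne_zero_of_finite

variable {F L : Type*} [Field F] [Field L] [Algebra F L] [FiniteDimensional F L] [IsGalois F L]

/-- **The cohomologically trivial subgroup of units, with finite index** (Mathlib vocabulary):
as `exists_unit_subgroup_of_galois`, plus: if `O` has finitely many residues modulo every power
of `ϖ`, then `V` has finite index in every subgroup `U` of units of `O`. -/
theorem exists_unit_subgroup_of_galois_of_residues (O : Subring L) (ϖ : F) (hϖ0 : ϖ ≠ 0)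
    (hϖ : algebraMap F L ϖ ∈ O)
    (hO : ∀ (g : L ≃ₐ[F] L) (x : L), x ∈ O → g x ∈ O)
    (hloc : ∀ x : L, ∃ k : ℕ, algebraMap F L ϖ ^ k * x ∈ O)
    (hcomplete : ∀ y : ℕ → L, (∀ k, y k ∈ O) → ∃ z ∈ O, ∀ k, ∃ c ∈ O,
      z - ∑ j ∈ Finset.range k, algebraMap F L ϖ ^ j * y j = algebraMap F L ϖ ^ k * c)
    (hsep : ∀ z ∈ O, (∀ k, ∃ c ∈ O, z = algebraMap F L ϖ ^ k * c) → z = 0)
    (hres : ∀ M : ℕ, ∃ T : Set L, T.Finite ∧
      ∀ x ∈ O, ∃ t ∈ T, ∃ e ∈ O, x = t + algebraMap F L ϖ ^ M * e)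
    (U : Subgroup Lˣ) (hU : ∀ u ∈ U, (u : L) ∈ O ∧ ((u⁻¹ : Lˣ) : L) ∈ O) :
    ∃ V : Subgroup Lˣ, V.relIndex U ≠ 0 ∧
      (∀ u ∈ V, (u : L) ∈ O ∧ ((u⁻¹ : Lˣ) : L) ∈ O) ∧
      (∀ (g : L ≃ₐ[F] L), ∀ u ∈ V, Units.map (g : L →* L) u ∈ V) ∧
      (∀ u ∈ V, (∀ g : L ≃ₐ[F] L, g (u : L) = u) →
        ∃ w ∈ V, algebraMap F L (Algebra.norm F (w : L)) = u) ∧
      (∀ σ : L ≃ₐ[F] L, (∀ g : L ≃ₐ[F] L, g ∈ Subgroup.zpowers σ) →
        ∀ u ∈ V, Algebra.norm F (u : L) = 1 → ∃ w ∈ V, σ (w : L) / (w : L) = u) := by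
  obtain ⟨M, V, hVO, hVg, hVM, ha, hb⟩ :=
    exists_unit_subgroup_of_galois O ϖ hϖ0 hϖ hO hloc hcomplete hsep
  obtain ⟨T, hT, hTres⟩ := hres M
  exact ⟨V, relIndex_ne_zero_of_residues O _ M T hT hTres U V hU hVM, hVO, hVg, ha, hb⟩

end Fermat.Agent.S55.H69
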