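import Fermat.Agent.S55.H66.InvSpec
import Fermat.Agent.S55.H80.CycRes
import Fermat.Agent.S55.H93.GalTransport

/-!
# Program C / C3, helper69: restriction of an inflated cyclic class (piece (S2) of `LeafInvRes`)

For `L, U` intermediate fields of `Ω / F` (`U/F` Galois, cyclic with generator `φ`), `E = L ⊔ U`:
the composite `H²(Gal(U/F), Uˣ) → H²(Gal(E/F), Eˣ) → H²(Gal(E/L), Eˣ)` (inflation, then
restriction) sends the cyclic class `cycClass φ a` (`a ∈ Fˣ`) to `cycClass ψ a`, for every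
generator `ψ` of `Gal(E/L)` with `ψ|_U = φ ^ f`, `f * orderOf ψ = orderOf φ`.
Pure Galois theory + CY6 (`H80.leafCycRes`); no valuation.
-/

set_option autoImplicit false

noncomputable section

namespace Fermat.Agent.S55.H69

open IntermediateField CategoryTheory groupCohomology Rep
open Fermat.Agent.S55.H66

variable {q : ℕ} [Fact q.Prime]
variable {F : Type} [Field F] [Algebra F (PadicAlgCl q)]
variable (L U : IntermediateField F (PadicAlgCl q))

/-- `Gal(LU/L) → Gal(U/F)`: restriction of automorphisms. -/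
def galRes [Normal F U] :
    ((extendScalars (le_sup_left : L ≤ L ⊔ U)) ≃ₐ[L] (extendScalars (le_sup_left : L ≤ L ⊔ U))) →*
      (U ≃ₐ[F] U) :=
  (resHom (le_sup_right : U ≤ L ⊔ U)).comp (upHom (le_sup_left : L ≤ L ⊔ U))

/-- The value of `galRes ψ` on `x ∈ U`, inside `Ω`. -/
theorem galRes_apply_coe [Normal F U]
    (ψ : (extendScalars (le_sup_left : L ≤ L ⊔ U)) ≃ₐ[L] (extendScalars (le_sup_left : L ≤ L ⊔ U)))
    (x : U) :
    ((galRes L U ψ x : U) : PadicAlgCl q) =
      (ψ ⟨(x : PadicAlgCl q), (le_sup_right : U ≤ L ⊔ U) x.2⟩ :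
        extendScalars (le_sup_left : L ≤ L ⊔ U)) := by
  show ((resHom (le_sup_right : U ≤ L ⊔ U) (upHom (le_sup_left : L ≤ L ⊔ U) ψ) x : U) :
    PadicAlgCl q) = _
  rw [resHom_apply, upHom_apply_coe]
  have h1 : (upEquiv (le_sup_left : L ≤ L ⊔ U)).symm
      (inclusion (le_sup_right : U ≤ L ⊔ U) x) =
      ⟨(x : PadicAlgCl q), (le_sup_right : U ≤ L ⊔ U) x.2⟩ :=
    Subtype.ext (by rw [upEquiv_symm_apply_coe]; rfl)
  rw [h1]

/-- An automorphism of `LU/L` which is trivial on `U` is trivial. -/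
theorem eq_of_forall_mem_right
    (ψ : (extendScalars (le_sup_left : L ≤ L ⊔ U)) ≃ₐ[L] (extendScalars (le_sup_left : L ≤ L ⊔ U)))
    (hψ : ∀ (x : PadicAlgCl q) (hx : x ∈ U),
      ((ψ ⟨x, (le_sup_right : U ≤ L ⊔ U) hx⟩ : extendScalars (le_sup_left : L ≤ L ⊔ U)) :
        PadicAlgCl q) = x)
    (y : extendScalars (le_sup_left : L ≤ L ⊔ U)) : ψ y = y := by
  -- the fixed field of `ψ`, lifted to `Ω` and restricted to `F`, contains `L` and `U`
  let K : IntermediateField L (PadicAlgCl q) :=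
    IntermediateField.lift (IntermediateField.fixedField (Subgroup.zpowers ψ))
  have hL : L ≤ K.restrictScalars F := by
    intro x hx
    exact K.algebraMap_mem ⟨x, hx⟩
  have hU : U ≤ K.restrictScalars F := by
    intro x hx
    show x ∈ K
    have h1 : (⟨x, (le_sup_right : U ≤ L ⊔ U) hx⟩ : extendScalars (le_sup_left : L ≤ L ⊔ U)) ∈
        IntermediateField.fixedField (Subgroup.zpowers ψ) := by
      rw [IntermediateField.mem_fixedField_iff]
      intro g hg
      have h2 : ψ ⟨x, (le_sup_right : U ≤ L ⊔ U) hx⟩ =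
          (⟨x, (le_sup_right : U ≤ L ⊔ U) hx⟩ : extendScalars (le_sup_left : L ≤ L ⊔ U)) :=
        Subtype.ext (hψ x hx)
      have h3 : Subgroup.zpowers ψ ≤ MulAction.stabilizer _
          (⟨x, (le_sup_right : U ≤ L ⊔ U) hx⟩ : extendScalars (le_sup_left : L ≤ L ⊔ U)) :=
        (Subgroup.zpowers_le).mpr (MulAction.mem_stabilizer_iff.mpr h2)
      exact MulAction.mem_stabilizer_iff.mp (h3 hg)
    exact (IntermediateField.mem_lift _).mpr h1
  have hy : (y : PadicAlgCl q) ∈ K.restrictScalars F := (sup_le hL hU) y.2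
  have hy' : y ∈ IntermediateField.fixedField (Subgroup.zpowers ψ) :=
    (IntermediateField.mem_lift y).mp hy
  exact (IntermediateField.mem_fixedField_iff _ _).mp hy' ψ (Subgroup.mem_zpowers ψ)

theorem galRes_injective [Normal F U] : Function.Injective (galRes L U) := by
  rw [injective_iff_map_eq_one]
  intro ψ hψ
  ext y
  refine congrArg Subtype.val (eq_of_forall_mem_right L U ψ (fun x hx => ?_) y)
  have h1 := galRes_apply_coe L U ψ ⟨x, hx⟩
  rw [hψ] at h1
  exact h1.symm

/-- The coefficient map of `galRes`: `Uˣ → (LU)ˣ`. -/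
def galResRep [Normal F U] :
    res (galRes L U) (Rep.ofAlgebraAutOnUnits F U) ⟶
      Rep.ofAlgebraAutOnUnits L (extendScalars (le_sup_left : L ≤ L ⊔ U)) :=
  (resFunctor (upHom (le_sup_left : L ≤ L ⊔ U))).map (inflRep (le_sup_right : U ≤ L ⊔ U)) ≫
    upRep (le_sup_left : L ≤ L ⊔ U)

/-- Inflation followed by restriction is the map induced by `galRes`. -/
theorem inflH2_resH2 [Normal F U] :
    inflH2 (le_sup_right : U ≤ L ⊔ U) ≫ resH2 (le_sup_left : L ≤ L ⊔ U) =
      map (galRes L U) (galResRep L U) 2 :=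
  (groupCohomology.map_comp _ _ _ _ 2).symm

/-- The coefficient map is the inclusion `Uˣ → (LU)ˣ` (values in `Ω`). -/
theorem galResRep_apply_coe [Normal F U] (u : Rep.ofAlgebraAutOnUnits F U) :
    ((((Additive.toMul (Rep.toAdditive ((galResRep L U).hom u)) :
      (extendScalars (le_sup_left : L ≤ L ⊔ U))ˣ) :
        extendScalars (le_sup_left : L ≤ L ⊔ U)) : PadicAlgCl q)) =
      (((Additive.toMul (Rep.toAdditive u) : Uˣ) : U) : PadicAlgCl q) :=
  upEquiv_symm_apply_coe (le_sup_left : L ≤ L ⊔ U) _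

/-- The image of `a ∈ Fˣ` under the coefficient map. -/
theorem galResRep_baseUnit [Normal F U] (a : Fˣ) :
    (galResRep L U).hom (baseUnit U a) =
      baseUnit (extendScalars (le_sup_left : L ≤ L ⊔ U))
        (Units.map (algebraMap F L : F →* L) a) := by
  have hinj : Function.Injective
      (fun x : Rep.ofAlgebraAutOnUnits L (extendScalars (le_sup_left : L ≤ L ⊔ U)) =>
        ((((Additive.toMul (Rep.toAdditive x) :
          (extendScalars (le_sup_left : L ≤ L ⊔ U))ˣ) :
            extendScalars (le_sup_left : L ≤ L ⊔ U)) : PadicAlgCl q))) := by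
    intro x y hxy
    apply Rep.toAdditive.injective
    apply Additive.toMul.injective
    apply Units.ext
    exact Subtype.ext hxy
  exact hinj ((galResRep_apply_coe L U (baseUnit U a)).trans rfl)

/-- **(S2)**: restriction to `L` of the inflation to `LU` of a cyclic class of `U/F`. -/
theorem resH2_inflH2_cycClass [FiniteDimensional F L] [FiniteDimensional F U] [IsGalois F U]
    (φ : U ≃ₐ[F] U) (hφ : ∀ τ : U ≃ₐ[F] U, τ ∈ Subgroup.zpowers φ)
    (ψ : (extendScalars (le_sup_left : L ≤ L ⊔ U)) ≃ₐ[L] (extendScalars (le_sup_left : L ≤ L ⊔ U)))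
    (hψ : ∀ τ : (extendScalars (le_sup_left : L ≤ L ⊔ U)) ≃ₐ[L]
      (extendScalars (le_sup_left : L ≤ L ⊔ U)), τ ∈ Subgroup.zpowers ψ)
    (f : ℕ) (hres : galRes L U ψ = φ ^ f) (hf : f * orderOf ψ = orderOf φ) (a : Fˣ) :
    (resH2 (le_sup_left : L ≤ L ⊔ U)).hom ((inflH2 (le_sup_right : U ≤ L ⊔ U)).hom
        (cycClass (Rep.ofAlgebraAutOnUnits F U) φ (baseUnit U a))) =
      cycClass (Rep.ofAlgebraAutOnUnits L (extendScalars (le_sup_left : L ≤ L ⊔ U))) ψ
        (baseUnit (extendScalars (le_sup_left : L ≤ L ⊔ U))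
          (Units.map (algebraMap F L : F →* L) a)) := by
  have : FiniteDimensional L (extendScalars (le_sup_left : L ≤ L ⊔ U)) :=
    H93.finiteDimensional_extendScalars (le_sup_left : L ≤ L ⊔ U)
  have h1 : (resH2 (le_sup_left : L ≤ L ⊔ U)).hom ((inflH2 (le_sup_right : U ≤ L ⊔ U)).hom
        (cycClass (Rep.ofAlgebraAutOnUnits F U) φ (baseUnit U a))) =
      (map (galRes L U) (galResRep L U) 2).hom
        (cycClass (Rep.ofAlgebraAutOnUnits F U) φ (baseUnit U a)) := by
    rw [← inflH2_resH2]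
    rfl
  have hinv : ∀ g : U ≃ₐ[F] U,
      (Rep.ofAlgebraAutOnUnits F U).ρ g (baseUnit U a) = baseUnit U a := by
    intro g
    apply Rep.toAdditive.injective
    apply Additive.toMul.injective
    apply Units.ext
    exact g.commutes (a : F)
  rw [h1, H80.leafCycRes ℤ (U ≃ₐ[F] U) _ (Rep.ofAlgebraAutOnUnits F U)
    (Rep.ofAlgebraAutOnUnits L (extendScalars (le_sup_left : L ≤ L ⊔ U))) (galRes L U)
    (galResRep L U) φ ψ f hφ hψ (galRes_injective L U) hres hf (baseUnit U a) hinv,
    galResRep_baseUnit]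

end Fermat.Agent.S55.H69
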