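import Mathlib

/-!
# Program C / C3 leaf L4, abstract core (helper69): Serre's successive approximation lemma

`exists_map_eq_of_graded_surj` (Serre, *Local Fields*, Ch. V §1, Lemma 2): let `φ : A → B` be a
homomorphism of commutative groups with decreasing filtrations `FA k`, `FB k`, `φ (FA k) ⊆ FB k`.
If `φ` is surjective on the graded pieces, `A` is complete and `B` is separated, then
`φ (FA 0) = FB 0`.
-/

set_option autoImplicit false

namespace Fermat.Agent.S55.H69

/-- **Serre's successive approximation lemma.** -/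
theorem exists_map_eq_of_graded_surj {A B : Type*} [CommGroup A] [CommGroup B] (φ : A →* B)
    (FA : ℕ → Subgroup A) (FB : ℕ → Subgroup B)
    (hφ : ∀ k, ∀ a ∈ FA k, φ a ∈ FB k)
    (hstep : ∀ k, ∀ b ∈ FB k, ∃ a ∈ FA k, b * (φ a)⁻¹ ∈ FB (k + 1))
    (hcompl : ∀ a : ℕ → A, (∀ k, a k ∈ FA k) →
      ∃ z ∈ FA 0, ∀ k, z * (∏ j ∈ Finset.range k, a j)⁻¹ ∈ FA k)
    (hsep : ∀ b : B, (∀ k, b ∈ FB k) → b = 1) :
    ∀ b ∈ FB 0, ∃ a ∈ FA 0, φ a = b := by
  classical
  intro b hb
  -- the step function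
  have hstep' : ∀ (k : ℕ) (b : B), ∃ a : A, b ∈ FB k → (a ∈ FA k ∧ b * (φ a)⁻¹ ∈ FB (k + 1)) := by
    intro k b
    by_cases h : b ∈ FB k
    · obtain ⟨a, ha, hab⟩ := hstep k b h
      exact ⟨a, fun _ => ⟨ha, hab⟩⟩
    · exact ⟨1, fun h' => absurd h' h⟩
  choose f hf using hstep'
  -- the sequences
  let bs : ℕ → B := fun k => Nat.rec b (fun k bk => bk * (φ (f k bk))⁻¹) k
  have hbs0 : bs 0 = b := rfl
  have hbsS : ∀ k, bs (k + 1) = bs k * (φ (f k (bs k)))⁻¹ := fun k => rfl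
  have hbsmem : ∀ k, bs k ∈ FB k := by
    intro k
    induction k with
    | zero => exact hb
    | succ k ih =>
      rw [hbsS]
      exact (hf k (bs k) ih).2
  let as : ℕ → A := fun k => f k (bs k)
  have hasmem : ∀ k, as k ∈ FA k := fun k => (hf k (bs k) (hbsmem k)).1
  have hprod : ∀ k, b = φ (∏ j ∈ Finset.range k, as j) * bs k := by
    intro k
    induction k with
    | zero => simp [hbs0]
    | succ k ih =>
      rw [Finset.prod_range_succ, map_mul, hbsS]
      have h1 : φ (∏ j ∈ Finset.range k, as j) * φ (as k) * (bs k * (φ (f k (bs k)))⁻¹) =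
          φ (∏ j ∈ Finset.range k, as j) * bs k := by
        show φ (∏ j ∈ Finset.range k, as j) * φ (f k (bs k)) * (bs k * (φ (f k (bs k)))⁻¹) = _
        rw [mul_assoc, mul_comm (bs k), ← mul_assoc (φ (f k (bs k))), mul_inv_cancel, one_mul]
      rw [h1]
      exact ih
  obtain ⟨z, hz0, hz⟩ := hcompl as hasmem
  refine ⟨z, hz0, ?_⟩
  have h2 : φ z * b⁻¹ = 1 := by
    apply hsep
    intro k
    have h1 : φ z * b⁻¹ = φ (z * (∏ j ∈ Finset.range k, as j)⁻¹) * (bs k)⁻¹ := by
      conv_lhs => rw [hprod k]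
      rw [map_mul, map_inv, mul_inv, mul_assoc]
    rw [h1]
    exact (FB k).mul_mem (hφ k _ (hz k)) ((FB k).inv_mem (hbsmem k))
  exact mul_inv_eq_one.mp h2

end Fermat.Agent.S55.H69
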