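/-
Program C (S55), package C9b, leaf (D) `H1BoundStatement` (helper69), part 2: the arithmetic.

* `dvd_ordv_of_inertia_fixes` : if the inertia groups over `ℓ` fix a `p`-th root of `a ∈ Lˣ`, then
  `p ∣ ord_w a` for the primes `w ∣ ℓ` of `L` (the core of S14 A3, for non-integral `a`, in the
  `H83.ordv` vocabulary);
* `mem_pDivGroup_of_pow_eq` : `a ∈ Lˣ`, `a · u = y ^ p` with `y ∈ ℚ_S^×`, `u ∈ E_S` ⟹ `a ∈ V_S(L)`;
* `mem_sUnits_of_mem_sUnit` : the `S`-units of `L` are `S`-units of `ℚ_S` (`L` unramified outside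
  `S`).
-/
import Mathlib
import Fermat.Agent.S14.H34.Inertia
import Fermat.Agent.S14.H4.Dictionary
import Fermat.Agent.S55.H23.KummerDict
import Fermat.Agent.S55.H42.GSDefs
import Fermat.Agent.S55.H83.DictSurj
import Fermat.Agent.S55.H87.CountCard

set_option autoImplicit false

noncomputable section

namespace Fermat.Agent.S55.H69

open IsDedekindDomain HeightOneSpectrum NumberField

/-- `ℚ̄`. -/
local notation "Qb" => AlgebraicClosure ℚ
/-- `Gal(ℚ̄/ℚ)`. -/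
local notation "GQ" => (AlgebraicClosure ℚ ≃ₐ[ℚ] AlgebraicClosure ℚ)

variable {p : ℕ} [Fact p.Prime]

/-- If the inertia groups over `ℓ` fix a `p`-th root `θ` of `a ∈ Lˣ`, then `p ∣ ord_w a` for
every prime `w ∣ ℓ` of `L`. -/
theorem dvd_ordv_of_inertia_fixes (L : IntermediateField ℚ Qb) [NumberField L]
    (a : (↥L)ˣ) (θ : Qb) (hθ : θ ^ p = (((a : ↥L)) : Qb)) (ℓ : ℕ) (hℓ : ℓ.Prime)
    (hI : ∀ A : ValuationSubring Qb, A.LiesOverPrime ℓ → ∀ σ ∈ A.inertiaSubgroupIn ℚ, σ θ = θ)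
    (w : HeightOneSpectrum (𝓞 L)) (hw : (ℓ : 𝓞 L) ∈ w.asIdeal) :
    (p : ℤ) ∣ H83.ordv L w a := by
  have hp : p.Prime := Fact.out
  have halg : IsAlgebraic ℤ ((a : ↥L)) :=
    (IsFractionRing.isAlgebraic_iff ℤ ℚ ↥L).mpr (Algebra.IsAlgebraic.isAlgebraic _)
  obtain ⟨d, hd0, hint⟩ := halg.exists_integral_multiple
  have hdL : (d : ↥L) ≠ 0 := by exact_mod_cast hd0
  -- the integral element `a' = d ^ p * a`
  have hint' : IsIntegral ℤ ((d : ↥L) ^ p * (a : ↥L)) := by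
    have h1 : (d : ↥L) ^ p * (a : ↥L) = (d : ↥L) ^ (p - 1) * (d • (a : ↥L)) := by
      rw [zsmul_eq_mul, ← mul_assoc, ← pow_succ, Nat.sub_add_cancel hp.one_le]
    rw [h1]
    exact (IsIntegral.pow (isIntegral_algebraMap (R := ℤ) (x := d)) _).mul hint
  set a' : 𝓞 L := ⟨(d : ↥L) ^ p * (a : ↥L), hint'⟩ with ha'
  have ha'L : ((a' : 𝓞 L) : ↥L) = (d : ↥L) ^ p * (a : ↥L) := rfl
  have ha'0 : a' ≠ 0 := by
    intro h0
    have h1 : ((a' : 𝓞 L) : ↥L) = 0 := by rw [h0]; rfl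
    rw [ha'L] at h1
    exact (mul_ne_zero (pow_ne_zero p hdL) (Units.ne_zero a)) h1
  have hθ' : ((d : Qb) * θ) ^ p = (((a' : 𝓞 L) : ↥L) : Qb) := by
    rw [mul_pow, hθ, ha'L]
    push_cast
    rfl
  have hI' : ∀ A : ValuationSubring Qb, A.LiesOverPrime ℓ → ∀ σ ∈ A.inertiaSubgroupIn ℚ,
      σ ((d : Qb) * θ) = (d : Qb) * θ := by
    intro A hA σ hσ
    rw [map_mul, hI A hA σ hσ, map_intCast]
  obtain ⟨Q, hQ, A, hAℓ, hQv, -, hin⟩ :=
    Fermat.Agent.S14.H4.exists_valuationSubring_over L w ℓ hℓ hw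
  have hdvd := Fermat.Agent.S14.H34.dvd_count_of_inertia_fixes_aux L ((d : Qb) * θ) a' ha'0 hθ'
    ℓ hℓ hI' w hw Q A hAℓ hQv hin
    (fun L' _ σ₀ h => Fermat.Agent.S14.H4.exists_lift_inertia L' Q σ₀ h)
  set n := (Associates.mk w.asIdeal).count (Associates.mk (Ideal.span {a'})).factors with hn
  have hval : w.valuation ↥L (algebraMap (𝓞 L) ↥L a') = WithZero.exp (-(n : ℤ)) := by
    rw [valuation_of_algebraMap, intValuation_if_neg w ha'0]
  set du : (↥L)ˣ := Units.mk0 (d : ↥L) hdL with hdu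
  have hcoe : (((du ^ p * a : (↥L)ˣ)) : ↥L) = algebraMap (𝓞 L) ↥L a' := by
    rw [Units.val_mul, Units.val_pow_eq_pow_val, hdu, Units.val_mk0]
    rfl
  have hord : H83.ordv L w (du ^ p * a) = -(n : ℤ) :=
    H83.ordv_eq_of_valuation_eq w _ _ (by rw [hcoe]; exact hval)
  rw [H83.ordv_mul, H87.ordv_pow] at hord
  have h2 : H83.ordv L w a = -(n : ℤ) - (p : ℤ) * H83.ordv L w du := by linarith
  rw [h2]
  exact dvd_sub ((dvd_neg).mpr (Int.natCast_dvd_natCast.mpr hdvd)) (dvd_mul_right _ _)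

/-- `a ∈ Lˣ` with `a · u = y ^ p`, `y ∈ ℚ_S^×`, `u ∈ E_S`, lies in `V_S(L)`. -/
theorem mem_pDivGroup_of_pow_eq {S : Finset Nat.Primes} (hpS : ExtCitation.pPrime p ∈ S)
    (L : IntermediateField ℚ Qb) [NumberField L] (a : (↥L)ˣ) (y u : Qbˣ)
    (hy : y ∈ H42.qsUnits S) (hu : u ∈ H42.sUnits S)
    (h : (((a : ↥L)) : Qb) * (u : Qb) = (y : Qb) ^ p) :
    a ∈ H87.pDivGroup L (H87.placesOver L S) p := by
  have hp : p.Prime := Fact.out
  obtain ⟨θ, hθ⟩ := IsAlgClosed.exists_pow_nat_eq ((((a : ↥L)) : Qb)) hp.pos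
  have ha0 : (((a : ↥L)) : Qb) ≠ 0 := H23.Kum.coe_unit_ne_zero a
  have hθ0 : θ ≠ 0 := by
    rintro rfl
    rw [zero_pow hp.ne_zero] at hθ
    exact ha0 hθ.symm
  have hpow : (y * (Units.mk0 θ hθ0)⁻¹) ^ p = u := by
    apply Units.ext
    rw [Units.val_pow_eq_pow_val, Units.val_mul, Units.val_inv_eq_inv_val, Units.val_mk0,
      mul_pow, inv_pow, hθ, ← h]
    field_simp
  have ht : y * (Units.mk0 θ hθ0)⁻¹ ∈ H42.sUnits S := by
    apply H42.mem_sUnits_of_pow_mem hpS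
    rw [hpow]
    exact hu
  have hθQ : Units.mk0 θ hθ0 ∈ H42.qsUnits S := by
    have h1 := (H42.qsUnits S).mul_mem ((H42.qsUnits S).inv_mem (H42.sUnits_le_qsUnits S ht)) hy
    have h2 : (y * (Units.mk0 θ hθ0)⁻¹)⁻¹ * y = Units.mk0 θ hθ0 := by
      rw [mul_inv, inv_inv, mul_comm y⁻¹, mul_assoc, inv_mul_cancel, mul_one]
    rwa [h2] at h1
  obtain ⟨N, hN, hθN⟩ := hθQ
  rw [Units.val_mk0] at hθN
  intro w hw
  obtain ⟨ℓ, hℓ, hℓw⟩ := H83.exists_prime_natCast_mem w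
  have hℓS : (⟨ℓ, hℓ⟩ : Nat.Primes) ∉ S := by
    intro hS
    apply hw
    rw [H87.mem_placesOver]
    exact ⟨⟨ℓ, hℓ⟩, hS, by simpa using hℓw⟩
  refine dvd_ordv_of_inertia_fixes L a θ hθ ℓ hℓ (fun A hA σ hσ => ?_) w hℓw
  have h1 := hN.2 ⟨ℓ, hℓ⟩ hℓS A hA hσ
  exact (IntermediateField.mem_fixingSubgroup_iff N σ).mp h1 θ hθN

/-- The `S`-units of `L` (units outside the primes above `S`) are `S`-units of `ℚ_S`, for `L`
unramified outside `S`. -/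
theorem mem_sUnits_of_mem_sUnit {S : Finset Nat.Primes} (L : IntermediateField ℚ Qb)
    [NumberField L] (hL : L.IsUnramifiedOutside S) (η : (↥L)ˣ)
    (hη : η ∈ H83.sUnit L (H87.placesOver L S)) (ηb : Qbˣ)
    (hηb : (ηb : Qb) = ((η : ↥L) : Qb)) : ηb ∈ H42.sUnits S := by
  refine ⟨⟨L, hL, by rw [hηb]; exact (η : ↥L).2⟩, fun q hq A hA => ?_⟩
  have hw := H23.Kum.placeA_notMem_placesOver L hq hA
  have h1 : (H23.Kum.placeA L q.2.ne_zero hA).valuation ↥L (η : ↥L) = 1 :=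
    hη _ (by simpa using hw)
  have h2 : (H23.Kum.placeA L q.2.ne_zero hA).valuation ↥L ((η : ↥L)⁻¹) = 1 := by
    rw [map_inv₀, h1, inv_one]
  refine ⟨?_, ?_⟩
  · rw [hηb]
    exact H23.Kum.mem_of_valuation_le_one L q.2.ne_zero hA _ h1.le
  · have h3 := H23.Kum.mem_of_valuation_le_one L q.2.ne_zero hA _ h2.le
    have h4 : ((ηb⁻¹ : Qbˣ) : Qb) = ((((η : ↥L)⁻¹ : ↥L)) : Qb) := by
      rw [Units.val_inv_eq_inv_val, hηb]
      simp
    rw [h4]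
    exact h3

end Fermat.Agent.S55.H69

end
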