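/-
Program C (S55), package C9b, leaf (D) `H1BoundStatement` (helper69), part 1:
Hilbert 90 for `Gal(ℚ̄/L)` and cocycles with values in `ℚ̄ˣ` which are constant modulo
`Gal(ℚ̄/K)`, `K/ℚ` finite, `L ≤ K` (Dedekind's independence of characters; Mathlib only).
-/
import Mathlib

set_option autoImplicit false

noncomputable section

namespace Fermat.Agent.S55.H69

/-- `ℚ̄`. -/
local notation "Qb" => AlgebraicClosure ℚ
/-- `Gal(ℚ̄/ℚ)`. -/
local notation "GQ" => (AlgebraicClosure ℚ ≃ₐ[ℚ] AlgebraicClosure ℚ)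

theorem isGalois_rat_algClosure : IsGalois ℚ Qb := by
  have : Algebra.IsAlgebraic ℚ Qb := AlgebraicClosure.isAlgebraic ℚ
  have : IsAlgClosure ℚ Qb := ⟨inferInstance, inferInstance⟩
  exact IsAlgClosure.isGalois ℚ Qb

/-- An element of `ℚ̄` fixed by `Gal(ℚ̄/K)` lies in `K`. -/
theorem mem_of_fixed (K : IntermediateField ℚ Qb) (x : Qb)
    (h : ∀ s : GQ, s ∈ K.fixingSubgroup → s x = x) : x ∈ K := by
  have := isGalois_rat_algClosure
  have h1 : x ∈ IntermediateField.fixedField K.fixingSubgroup := by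
    rw [IntermediateField.mem_fixedField_iff]
    exact h
  rwa [InfiniteGalois.fixedField_fixingSubgroup] at h1

theorem finiteIndex_fixingSubgroup_of_finite (N : IntermediateField ℚ Qb)
    [FiniteDimensional ℚ N] : (N.fixingSubgroup).FiniteIndex := by
  have := isGalois_rat_algClosure
  refine ⟨?_⟩
  rw [← IntermediateField.finrank_eq_fixingSubgroup_index]
  exact Module.finrank_pos.ne'

/-- **Hilbert 90** for `Γ = Gal(ℚ̄/L)`: a `1`-cocycle `ε : Γ → ℚ̄ˣ` which is constant modulo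
`Gal(ℚ̄/K)` (`K` finite over `ℚ`, `L ≤ K`) is the coboundary of an element of `Kˣ`. -/
theorem exists_of_cocycle (L K : IntermediateField ℚ Qb) [FiniteDimensional ℚ K] (hLK : L ≤ K)
    (ε : ↥L.fixingSubgroup → Qb) (hε : ∀ g, ε g ≠ 0)
    (hcoc : ∀ g h : ↥L.fixingSubgroup, ε (g * h) = (g : GQ) (ε h) * ε g)
    (hU : ∀ g s : ↥L.fixingSubgroup, (s : GQ) ∈ K.fixingSubgroup → ε (g * s) = ε g) :
    ∃ y : Qb, y ≠ 0 ∧ y ∈ K ∧ ∀ g : ↥L.fixingSubgroup, ε g * y = (g : GQ) y := by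
  classical
  set U : Subgroup ↥L.fixingSubgroup := K.fixingSubgroup.subgroupOf L.fixingSubgroup with hUdef
  have := finiteIndex_fixingSubgroup_of_finite K
  have : U.FiniteIndex := Subgroup.instFiniteIndex_subgroupOf _ _
  have : Finite (↥L.fixingSubgroup ⧸ U) := Subgroup.finite_quotient_of_finiteIndex
  let _ : Fintype (↥L.fixingSubgroup ⧸ U) := Fintype.ofFinite _
  have hmemU : ∀ s : ↥L.fixingSubgroup, s ∈ U ↔ (s : GQ) ∈ K.fixingSubgroup := fun s =>
    Subgroup.mem_subgroupOf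
  have hfix : ∀ s : ↥L.fixingSubgroup, s ∈ U → ∀ θ : Qb, θ ∈ K → (s : GQ) θ = θ := by
    intro s hs θ hθ
    exact (IntermediateField.mem_fixingSubgroup_iff K _).mp ((hmemU s).mp hs) θ hθ
  -- the summand
  set F : Qb → ↥L.fixingSubgroup → Qb := fun θ σ => ε σ * (σ : GQ) θ with hF
  have hFU : ∀ θ ∈ K, ∀ (σ s : ↥L.fixingSubgroup), s ∈ U → F θ (σ * s) = F θ σ := by
    intro θ hθ σ s hs
    show ε (σ * s) * ((σ * s : ↥L.fixingSubgroup) : GQ) θ = ε σ * (σ : GQ) θ
    rw [hU σ s ((hmemU s).mp hs), Subgroup.coe_mul, AlgEquiv.mul_apply, hfix s hs θ hθ]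
  have hFout : ∀ θ ∈ K, ∀ σ : ↥L.fixingSubgroup,
      F θ ((QuotientGroup.mk σ : ↥L.fixingSubgroup ⧸ U).out) = F θ σ := by
    intro θ hθ σ
    obtain ⟨h, hh⟩ := QuotientGroup.mk_out_eq_mul U σ
    rw [hh]
    exact hFU θ hθ σ h h.2
  set P : Qb → Qb := fun θ => ∑ q : ↥L.fixingSubgroup ⧸ U, F θ q.out with hP
  -- the transformation rule
  have hA : ∀ θ ∈ K, ∀ g : ↥L.fixingSubgroup, (g : GQ) (P θ) * ε g = P θ := by
    intro θ hθ g
    show (g : GQ) (∑ q : ↥L.fixingSubgroup ⧸ U, F θ q.out) * ε g = _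
    rw [map_sum, Finset.sum_mul]
    have h1 : ∀ q : ↥L.fixingSubgroup ⧸ U,
        (g : GQ) (F θ q.out) * ε g = F θ ((g • q).out) := by
      intro q
      have h2 : g • q = (QuotientGroup.mk (g * q.out) : ↥L.fixingSubgroup ⧸ U) := by
        conv_lhs => rw [← QuotientGroup.out_eq' q]
        rfl
      rw [h2, hFout θ hθ]
      show (g : GQ) (ε q.out * (q.out : GQ) θ) * ε g = ε (g * q.out) * ((g * q.out : ↥L.fixingSubgroup) : GQ) θ
      rw [hcoc, map_mul, Subgroup.coe_mul, AlgEquiv.mul_apply]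
      ring
    rw [Finset.sum_congr rfl fun q _ => h1 q]
    exact Equiv.sum_comp (MulAction.toPerm g) fun q : ↥L.fixingSubgroup ⧸ U => F θ q.out
  -- non-vanishing (Dedekind)
  have hB : ∃ θ ∈ K, P θ ≠ 0 := by
    by_contra hcon
    push Not at hcon
    let χ : ↥L.fixingSubgroup ⧸ U → (↥K →* Qb) := fun q =>
      { toFun := fun x => (q.out : GQ) (x : Qb)
        map_one' := by simp
        map_mul' := fun x y => by simp }
    have hχ : Function.Injective χ := by
      intro q q' hqq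
      have h1 : ∀ x : Qb, x ∈ K → (q.out : GQ) x = (q'.out : GQ) x := fun x hx =>
        DFunLike.congr_fun hqq (⟨x, hx⟩ : ↥K)
      have h2 : (q.out)⁻¹ * q'.out ∈ U := by
        rw [hmemU, IntermediateField.mem_fixingSubgroup_iff]
        intro x hx
        show ((q.out)⁻¹ * q'.out : ↥L.fixingSubgroup).1 x = x
        rw [Subgroup.coe_mul, AlgEquiv.mul_apply, ← h1 x hx, Subgroup.coe_inv]
        exact AlgEquiv.symm_apply_apply _ _
      rw [← QuotientGroup.out_eq' q, ← QuotientGroup.out_eq' q']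
      exact QuotientGroup.eq.mpr h2
    have hli := (linearIndependent_monoidHom ↥K Qb).comp χ hχ
    have hzero : ∑ q : ↥L.fixingSubgroup ⧸ U, ε q.out • ((fun f : ↥K →* Qb => (f : ↥K → Qb)) ∘ χ) q = 0 := by
      funext x
      rw [Finset.sum_apply]
      exact hcon (x : Qb) x.2
    have h0 := Fintype.linearIndependent_iff.mp hli (fun q => ε q.out) hzero
      (QuotientGroup.mk 1)
    exact hε _ h0
  obtain ⟨θ, hθ, hPθ⟩ := hB
  have hε1 : ε 1 = 1 := by
    have h := hcoc 1 1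
    rw [mul_one, OneMemClass.coe_one, AlgEquiv.one_apply] at h
    have h2 : ε 1 * 1 = ε 1 * ε 1 := by rw [mul_one]; exact h
    exact (mul_left_cancel₀ (hε 1) h2).symm
  have hy : ∀ g : ↥L.fixingSubgroup, ε g * (P θ)⁻¹ = (g : GQ) (P θ)⁻¹ := by
    intro g
    have h1 := hA θ hθ g
    have h2 : (g : GQ) (P θ) ≠ 0 := (map_ne_zero _).mpr hPθ
    have h3 : ε g = P θ * ((g : GQ) (P θ))⁻¹ := by
      rw [eq_mul_inv_iff_mul_eq₀ h2, mul_comm]
      exact h1
    rw [map_inv₀, h3, mul_comm (P θ), mul_assoc, mul_inv_cancel₀ hPθ, mul_one]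
  refine ⟨(P θ)⁻¹, inv_ne_zero hPθ, ?_, hy⟩
  apply mem_of_fixed
  intro s hs
  have hsL : s ∈ L.fixingSubgroup := IntermediateField.fixingSubgroup_antitone hLK hs
  have h1 := hy ⟨s, hsL⟩
  have h2 : ε ⟨s, hsL⟩ = 1 := by
    have := hU 1 ⟨s, hsL⟩ hs
    rw [one_mul] at this
    rw [this, hε1]
  rw [h2, one_mul] at h1
  exact h1.symm

end Fermat.Agent.S55.H69

end
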