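/-
Program C (S55), package C9b, leaf (D) (helper69): `H70.H1BoundStatement p S L (H87.cNum p S L)`
for every finite extension `L` of `ℚ` unramified outside `S` (`p ∈ S`):

  the `p`-torsion of `H¹_lc(G_S(L), E_S)` injects into `V_S(L) / (E_S(L) · Lˣᵖ)`,

a finite set with `p ^ cNum p S L` elements.  Construction (helper87): a class `e` is represented
by a level-constant cocycle `g ↦ g y / y` with `y ∈ ℚ_S^×` (Hilbert 90); `p • e = 0` gives
`(g y / y) ^ p = g u / u` with `u ∈ E_S`, so `a := y ^ p / u ∈ Lˣ`, and `a ∈ V_S(L)` because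
`a ^ (1/p) ∈ ℚ_S`.  If `a' / a ∈ E_S(L) · Lˣᵖ` then `e = e'`.
-/
import Fermat.Agent.S55.H70.GSExports
import Fermat.Agent.S55.H68.Bridge1Core
import Fermat.Agent.S55.H69.H1BoundH90
import Fermat.Agent.S55.H69.H1BoundArith

set_option autoImplicit false

open CategoryTheory

noncomputable section

namespace Fermat.Agent.S55.H69

open Fermat.Agent.S55

/-- `ℚ̄`. -/
local notation "Qb" => AlgebraicClosure ℚ
/-- `Gal(ℚ̄/ℚ)`. -/
local notation "GQ" => (AlgebraicClosure ℚ ≃ₐ[ℚ] AlgebraicClosure ℚ)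

variable {p : ℕ} [Fact p.Prime] (S : Finset Nat.Primes) (L : IntermediateField ℚ Qb)

/-- The constant `0`-cochains of `E_S` are level-constant. -/
theorem isLC_const_es (a : H42.resF L (H42.ESx S)) :
    H49.IsLC (H42.fieldDatum S L) (H42.resF L (H42.ESx S))
      (fun _ : Fin 0 → ↥L.fixingSubgroup => a) := by
  obtain ⟨N, h1, h2, h3⟩ := H42.resF_smooth_of L (M := H42.ESx S) H42.ESx_smooth a
  exact ⟨N, h1, h2, fun _ _ _ => rfl, fun _ s hs => h3 s hs⟩

/-- The value at `g` of a level-constant `1`-cocycle of `E_S`, as a unit of `ℚ̄`. -/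
def cocVal (z : H49.cyc (H49.lcComplex (H42.fieldDatum S L) (H42.resF L (H42.ESx S))) 1)
    (g : ↥L.fixingSubgroup) : Qbˣ :=
  H42.unitsRep.val (show H42.ESx S from
    H68.ofCyc₁ (H42.fieldDatum S L) (H42.resF L (H42.ESx S)) z g)

theorem cocVal_mem (z : H49.cyc (H49.lcComplex (H42.fieldDatum S L) (H42.resF L (H42.ESx S))) 1)
    (g : ↥L.fixingSubgroup) : cocVal S L z g ∈ H42.sUnits S :=
  H42.unitsRep.val_mem _

theorem cocVal_mul (z : H49.cyc (H49.lcComplex (H42.fieldDatum S L) (H42.resF L (H42.ESx S))) 1)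
    (g h : ↥L.fixingSubgroup) :
    ((cocVal S L z (g * h) : Qbˣ) : Qb) =
      (g : GQ) ((cocVal S L z h : Qbˣ) : Qb) * ((cocVal S L z g : Qbˣ) : Qb) := by
  have h0 := (groupCohomology.mem_cocycles₁_def _).1
    (H68.ofCyc₁_mem_cocycles₁ (H42.fieldDatum S L) (H42.resF L (H42.ESx S)) z) g h
  have h1 : H68.ofCyc₁ (H42.fieldDatum S L) (H42.resF L (H42.ESx S)) z (g * h) =
      (H42.resF L (H42.ESx S)).ρ g
        (H68.ofCyc₁ (H42.fieldDatum S L) (H42.resF L (H42.ESx S)) z h) +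
        H68.ofCyc₁ (H42.fieldDatum S L) (H42.resF L (H42.ESx S)) z g := by
    rw [← sub_eq_zero, ← neg_eq_zero, ← h0]
    abel
  have h2 : cocVal S L z (g * h) = (g : GQ) • cocVal S L z h * cocVal S L z g :=
    congrArg (fun x => H42.unitsRep.val (show H42.ESx S from x)) h1
  rw [h2, Units.val_mul]
  rfl

theorem cocVal_nsmul (z : H49.cyc (H49.lcComplex (H42.fieldDatum S L) (H42.resF L (H42.ESx S))) 1)
    (n : ℕ) (g : ↥L.fixingSubgroup) : cocVal S L (n • z) g = cocVal S L z g ^ n := by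
  have h1 : H68.ofCyc₁ (H42.fieldDatum S L) (H42.resF L (H42.ESx S)) (n • z) g =
      n • H68.ofCyc₁ (H42.fieldDatum S L) (H42.resF L (H42.ESx S)) z g := rfl
  show H42.unitsRep.val (show H42.ESx S from
    H68.ofCyc₁ (H42.fieldDatum S L) (H42.resF L (H42.ESx S)) (n • z) g) = _
  rw [h1]
  exact H42.unitsRep.val_nsmul n _

/-- The relation between a class `e ∈ H¹_lc(G_S(L), E_S)` and an element `a ∈ Lˣ`:
`e = [g ↦ g y / y]` with `y ∈ ℚ_S^×`, and `a · u = y ^ p` with `u ∈ E_S`. -/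
def Rel (p : ℕ) (e : H70.HE S L 1) (a : (↥L)ˣ) : Prop :=
  ∃ (z : H49.cyc (H49.lcComplex (H42.fieldDatum S L) (H42.resF L (H42.ESx S))) 1) (y u : Qbˣ),
    (H49.cls (H49.lcComplex (H42.fieldDatum S L) (H42.resF L (H42.ESx S))) 1).hom z = e ∧
    y ∈ H42.qsUnits S ∧ u ∈ H42.sUnits S ∧
    (∀ g : ↥L.fixingSubgroup, ((cocVal S L z g : Qbˣ) : Qb) * (y : Qb) = (g : GQ) (y : Qb)) ∧
    (((a : ↥L)) : Qb) * (u : Qb) = (y : Qb) ^ p

variable {S L}

omit [Fact p.Prime] in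
/-- (EX) every `p`-torsion class is related to some `a ∈ Lˣ`. -/
theorem exists_rel (hL : L.IsUnramifiedOutside S) (e : H70.HE S L 1) (he : p • e = 0) :
    ∃ a : (↥L)ˣ, Rel S L p e a := by
  obtain ⟨z, rfl⟩ := H49.cls_surjective
    (H49.lcComplex (H42.fieldDatum S L) (H42.resF L (H42.ESx S))) 1 e
  obtain ⟨N, hN, -, hlc1, -⟩ :=
    H68.isLC_lcValC (H42.fieldDatum S L) (H42.resF L (H42.ESx S)) z.1
  have hN' : N.IsUnramifiedOutside S := hN
  have : FiniteDimensional ℚ L := hL.1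
  have : FiniteDimensional ℚ N := hN'.1
  have : FiniteDimensional ℚ ↥(L ⊔ N) := IntermediateField.finiteDimensional_sup L N
  -- Hilbert 90
  obtain ⟨y, hy0, hyK, hy⟩ := exists_of_cocycle L (L ⊔ N) le_sup_left
    (fun g => ((cocVal S L z g : Qbˣ) : Qb)) (fun g => Units.ne_zero _)
    (fun g h => cocVal_mul S L z g h)
    (fun g s hs => by
      have hs' : s ∈ (H42.fieldDatum S L).sub N :=
        IntermediateField.fixingSubgroup_antitone (le_sup_right : N ≤ L ⊔ N) hs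
      have h1 := hlc1 (fun _ => g) (fun _ => s) (fun _ => hs')
      exact congrArg (fun x => ((H42.unitsRep.val (show H42.ESx S from x) : Qbˣ) : Qb)) h1)
  -- `p`-torsion
  have h1 : (H49.cls (H49.lcComplex (H42.fieldDatum S L) (H42.resF L (H42.ESx S))) 1).hom
      (p • z) = 0 := by
    rw [map_nsmul]
    exact he
  obtain ⟨u, hu⟩ := (H68.cls_eq_zero_iff_exists (H42.fieldDatum S L) (H42.resF L (H42.ESx S))
    (isLC_const_es S L) (p • z)).mp h1
  set u₀ : Qbˣ := H42.unitsRep.val (show H42.ESx S from u) with hu₀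
  have hu' : ∀ g : ↥L.fixingSubgroup,
      ((cocVal S L z g : Qbˣ) : Qb) ^ p * (u₀ : Qb) = (g : GQ) (u₀ : Qb) := by
    intro g
    have h2 : cocVal S L (p • z) g = (g : GQ) • u₀ * u₀⁻¹ := by
      have h3 := congrArg (fun x => H42.unitsRep.val (show H42.ESx S from x)) (hu g)
      exact h3
    rw [cocVal_nsmul] at h2
    have h4 : cocVal S L z g ^ p * u₀ = (g : GQ) • u₀ := by
      rw [h2, inv_mul_cancel_right]
    have h5 := congrArg (fun x : Qbˣ => (x : Qb)) h4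
    simpa using h5
  -- the element `a₀ = y ^ p / u₀` is fixed by `Gal(ℚ̄/L)`
  have hu₀0 : (u₀ : Qb) ≠ 0 := Units.ne_zero _
  have hfix : ∀ g : ↥L.fixingSubgroup, (g : GQ) (y ^ p * (u₀ : Qb)⁻¹) = y ^ p * (u₀ : Qb)⁻¹ := by
    intro g
    have hc0 : ((cocVal S L z g : Qbˣ) : Qb) ≠ 0 := Units.ne_zero _
    rw [map_mul, map_pow, map_inv₀, ← hy g, ← hu' g, mul_pow]
    field_simp
  have haL : y ^ p * (u₀ : Qb)⁻¹ ∈ L := mem_of_fixed L _ fun s hs => hfix ⟨s, hs⟩
  have ha0 : y ^ p * (u₀ : Qb)⁻¹ ≠ 0 := mul_ne_zero (pow_ne_zero p hy0) (inv_ne_zero hu₀0)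
  have ha0' : (⟨y ^ p * (u₀ : Qb)⁻¹, haL⟩ : ↥L) ≠ 0 := fun h => ha0 (congrArg Subtype.val h)
  refine ⟨Units.mk0 _ ha0', z, Units.mk0 y hy0, u₀, rfl, ⟨L ⊔ N, hL.sup hN', hyK⟩,
    H42.unitsRep.val_mem _, hy, ?_⟩
  show y ^ p * (u₀ : Qb)⁻¹ * (u₀ : Qb) = y ^ p
  rw [inv_mul_cancel_right₀ hu₀0]

/-- (MEM) an element related to a class lies in `V_S(L)`. -/
theorem mem_of_rel (hpS : ExtCitation.pPrime p ∈ S) [NumberField L] {e : H70.HE S L 1}
    {a : (↥L)ˣ} (h : Rel S L p e a) : a ∈ H87.pDivGroup L (H87.placesOver L S) p := by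
  obtain ⟨z, y, u, -, hy, hu, -, hau⟩ := h
  exact mem_pDivGroup_of_pow_eq hpS L a y u hy hu hau

/-- (INJ) classes related to elements congruent modulo `E_S(L) · Lˣᵖ` are equal. -/
theorem eq_of_rel (hpS : ExtCitation.pPrime p ∈ S) [NumberField L]
    (hL : L.IsUnramifiedOutside S) {e e' : H70.HE S L 1} {a a' : (↥L)ˣ}
    (h : Rel S L p e a) (h' : Rel S L p e' a')
    (haa : a⁻¹ * a' ∈ H83.sUnit L (H87.placesOver L S) ⊔ H87.powGroup L p) : e = e' := by
  have hp : p.Prime := Fact.out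
  obtain ⟨z, y, u, rfl, hy, hu, hzy, hau⟩ := h
  obtain ⟨z', y', u', rfl, hy', hu', hzy', hau'⟩ := h'
  obtain ⟨η, hη, b', hb', hηb⟩ := Subgroup.mem_sup.mp haa
  obtain ⟨b, rfl⟩ := (H87.mem_powGroup L p b').mp hb'
  have hη0 : (((η : ↥L)) : Qb) ≠ 0 := H23.Kum.coe_unit_ne_zero η
  have hb0 : (((b : ↥L)) : Qb) ≠ 0 := H23.Kum.coe_unit_ne_zero b
  have ha0 : (((a : ↥L)) : Qb) ≠ 0 := H23.Kum.coe_unit_ne_zero a
  have hηS : Units.mk0 _ hη0 ∈ H42.sUnits S :=
    mem_sUnits_of_mem_sUnit L hL η hη (Units.mk0 _ hη0) rfl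
  -- `a' = a * η * b ^ p` in `ℚ̄`
  have hrel : (((a' : ↥L)) : Qb) = (((a : ↥L)) : Qb) * ((((η : ↥L)) : Qb) * (((b : ↥L)) : Qb) ^ p) := by
    have h1 : a' = a * (η * b ^ p) := by rw [hηb, mul_inv_cancel_left]
    rw [h1]
    simp
  set t : Qbˣ := y' * (y * Units.mk0 _ hb0)⁻¹ with ht
  have hy0 : (y : Qb) ≠ 0 := Units.ne_zero y
  have hu0 : (u : Qb) ≠ 0 := Units.ne_zero u
  have hpow : t ^ p = Units.mk0 _ hη0 * u' * u⁻¹ := by
    apply Units.ext
    simp only [ht, Units.val_pow_eq_pow_val, Units.val_mul, Units.val_inv_eq_inv_val,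
      Units.val_mk0, mul_pow, inv_pow, mul_inv]
    rw [← hau', ← hau, hrel]
    field_simp
  have htS : t ∈ H42.sUnits S := by
    apply H42.mem_sUnits_of_pow_mem hpS
    rw [hpow]
    exact mul_mem (mul_mem hηS hu') (inv_mem hu)
  -- the two cocycles differ by the coboundary of `t`
  refine ((H68.cls_eq_cls_iff_exists (H42.fieldDatum S L) (H42.resF L (H42.ESx S))
    (isLC_const_es S L) z' z).mpr ⟨(H42.unitsRep.mk t htS : H42.ESx S), fun g => ?_⟩).symm
  apply H42.unitsRep.val_injective (H := H42.sUnits S) (hH := H42.esStable S)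
  show cocVal S L z' g * (cocVal S L z g)⁻¹ = (g : GQ) • t * t⁻¹
  apply Units.ext
  have hgb : (g : GQ) (((b : ↥L)) : Qb) = (((b : ↥L)) : Qb) :=
    (IntermediateField.mem_fixingSubgroup_iff L _).mp g.2 _ (b : ↥L).2
  have hc0 : ((cocVal S L z g : Qbˣ) : Qb) ≠ 0 := Units.ne_zero _
  have hy'0 : (y' : Qb) ≠ 0 := Units.ne_zero y'
  rw [Units.val_mul, Units.val_mul, Units.val_inv_eq_inv_val, Units.val_inv_eq_inv_val,
    H42.coe_smul_units]
  simp only [ht, Units.val_mul, Units.val_inv_eq_inv_val, Units.val_mk0, map_mul, map_inv₀, hgb]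
  rw [← hzy g, ← hzy' g]
  field_simp

/-- **Leaf (D) of C9b**: the `p`-torsion of `H¹_lc(G_S(L), E_S)` injects into
`V_S(L) / (E_S(L) · Lˣᵖ)`, which has `p ^ cNum p S L` elements. -/
theorem h1Bound (hpS : ExtCitation.pPrime p ∈ S) (L : IntermediateField ℚ Qb)
    (hL : L.IsUnramifiedOutside S) : H70.H1BoundStatement p S L (H87.cNum p S L) := by
  classical
  have hp : p.Prime := Fact.out
  have : NumberField L := H87.numberField_of_finiteDimensional L hL.1
  have hidx : ((H83.sUnit L (H87.placesOver L S) ⊔ H87.powGroup L p).subgroupOf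
      (H87.pDivGroup L (H87.placesOver L S) p)).index = p ^ H87.cNum p S L := by
    rw [H87.cNum_eq]
    exact H87.relIndex_sup_eq_pow L (H87.placesOver L S) p hp
  have : ((H83.sUnit L (H87.placesOver L S) ⊔ H87.powGroup L p).subgroupOf
      (H87.pDivGroup L (H87.placesOver L S) p)).FiniteIndex :=
    ⟨by rw [hidx]; exact pow_ne_zero _ hp.ne_zero⟩
  have hex : ∀ e : {a : H70.HE S L 1 // p • a = 0}, ∃ a : (↥L)ˣ, Rel S L p e.1 a :=
    fun e => exists_rel hL e.1 e.2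
  choose α hα using hex
  have hmem : ∀ e, α e ∈ H87.pDivGroup L (H87.placesOver L S) p := fun e => mem_of_rel hpS (hα e)
  refine ⟨↥(H87.pDivGroup L (H87.placesOver L S) p) ⧸
      (H83.sUnit L (H87.placesOver L S) ⊔ H87.powGroup L p).subgroupOf
        (H87.pDivGroup L (H87.placesOver L S) p),
    Subgroup.finite_quotient_of_finiteIndex, fun e => QuotientGroup.mk ⟨α e, hmem e⟩, ?_, ?_⟩
  · intro e e' hee
    have h1 := QuotientGroup.eq.mp hee
    have h2 : (α e)⁻¹ * α e' ∈ H83.sUnit L (H87.placesOver L S) ⊔ H87.powGroup L p :=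
      Subgroup.mem_subgroupOf.mp h1
    exact Subtype.ext (eq_of_rel hpS hL (hα e) (hα e') h2)
  · exact le_of_eq hidx

/-- The (D) clause of `H70.LevelLeaves` for the level fields, with `c = H87.cNum p S`. -/
theorem h1Bound_levelField (hpS : ExtCitation.pPrime p ∈ S) (L : IntermediateField ℚ Qb)
    (hL : H70.IsLevelField p S L) : H70.H1BoundStatement p S L (H87.cNum p S L) :=
  h1Bound hpS L hL.1

end Fermat.Agent.S55.H69

end
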