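import Fermat.Agent.S55.H69.InvResSquare
import Fermat.Agent.S55.H66.InvAsm
import Fermat.Agent.S55.H39.UnramUp
import Fermat.Agent.S55.H24.Inv
import Fermat.Agent.S55.H10.CycSurj

/-!
# Program C / C3, helper69: `LeafInvRes` — restriction multiplies the invariant by the degree

`leafInvRes_of`: `inv_{E/L} (res x) = [L : F] • inv_{E/F} x` for `F ⊆ L ⊆ E`, `E / F` finite
Galois, from the leaves `LeafInv`, `LeafInvUnr`, `LeafInvInfl`, `LeafUnram`, `LeafUnramUnique`,
`LeafFrob` and the inputs of `exists_unram_lift`.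

Route: `x` becomes, in `E ⊔ U` (`U = F_n` unramified, `n = [E : F]`), the inflation of an
unramified class `y = cycClass φ a`; restriction commutes with inflation (`InvResSquare`), and
the restriction of the unramified class to `L` is `cycClass ψ a` on `LU / L` (`CycResUnram`,
with the Frobenius relation `ψ|_U = φ^f` of helper39); finally `ord_L a = e · ord_F a`,
`[LU : L] = n / f` and `e f = [L : F]`.
-/

set_option autoImplicit false

noncomputable section

namespace Fermat.Agent.S55.H69

open IntermediateField CategoryTheory groupCohomology Rep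
open Fermat.Agent.S55.H66

variable {q : ℕ} [Fact q.Prime]

/-- The core: the formula for a class `x` which is unramified of level `n` (`[L : F] ∣ n`). -/
theorem invRes_core (hInv : LeafInv q) (hInvUnr : LeafInvUnr q) (hInvInfl : LeafInvInfl q)
    (hUnram : LeafUnram q) (hUU : LeafUnramUnique q) (hFrob : LeafFrob q)
    (F : Type) [Field F] [Algebra ℚ_[q] F] [Algebra F (PadicAlgCl q)]
    [IsScalarTower ℚ_[q] F (PadicAlgCl q)] [FiniteDimensional ℚ_[q] F]
    (L E : IntermediateField F (PadicAlgCl q)) [FiniteDimensional F L]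
    [FiniteDimensional F E] [IsGalois F E] (h : L ≤ E)
    [FiniteDimensional L (extendScalars h)] [IsGalois L (extendScalars h)]
    (n : ℕ) (hn : 0 < n) (hLn : Module.finrank F L ∣ n)
    [FiniteDimensional F (unramExt q F n)] [IsGalois F (unramExt q F n)]
    (hUdeg : Module.finrank F (unramExt q F n) = n) (hUunr : IsUnram q F (unramExt q F n))
    (x : groupCohomology.H2 (Rep.ofAlgebraAutOnUnits F E))
    (y : groupCohomology.H2 (Rep.ofAlgebraAutOnUnits F (unramExt q F n)))
    (hy : (inflH2 (le_sup_right : unramExt q F n ≤ E ⊔ unramExt q F n)).hom y =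
      (inflH2 (le_sup_left : E ≤ E ⊔ unramExt q F n)).hom x) :
    inv q (extendScalars h) ((resH2 h).hom x) = Module.finrank F L • inv q E x := by
  classical
  -- Frobenius of `U / F` and the cyclic description of `y`
  obtain ⟨φ, hφfrob, hφuniq, hφgen⟩ := hFrob F (unramExt q F n) hUunr
  obtain ⟨b, hbinv, hby⟩ := H10.leafCycSurj ℤ _
    (Rep.ofAlgebraAutOnUnits F (unramExt q F n)) φ hφgen y
  obtain ⟨a, rfl⟩ := H24.exists_baseUnit_of_invariant (unramExt q F n) b hbinv
  -- the invariant of `x`
  have hC : inv q E x = (((ord q (a : F) : ℚ) / (n : ℚ) : ℚ) : QZ) := by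
    have h1 := (hInv F E).1 n (inv q (unramExt q F n)) hn
      (hInvUnr F (unramExt q F n) hUunr) x y hy.symm
    rw [h1, ← hby, hInvUnr F (unramExt q F n) hUunr φ hφfrob a, hUdeg]
  -- the unramified extension `LU / L`
  have hULfin : FiniteDimensional L (extendScalars (le_sup_left : L ≤ L ⊔ unramExt q F n)) :=
    H39.finiteDimensional_sup_unramExt F L hUnram n hn
  have hULunr : IsUnram q L (extendScalars (le_sup_left : L ≤ L ⊔ unramExt q F n)) :=
    H39.isUnram_sup_unramExt F L hUnram n hn
  have hULgal : IsGalois L (extendScalars (le_sup_left : L ≤ L ⊔ unramExt q F n)) := by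
    have hm : 0 < Module.finrank L (extendScalars (le_sup_left : L ≤ L ⊔ unramExt q F n)) :=
      Module.finrank_pos
    have heq := H39.sup_unramExt_eq F L hUnram hUU n hn
    rw [heq]
    exact (hUnram L _ hm).2.2.1
  obtain ⟨ψ, hψfrob, -, hψgen⟩ :=
    hFrob L (extendScalars (le_sup_left : L ≤ L ⊔ unramExt q F n)) hULunr
  obtain ⟨e, f, he0, hf0, hef, hresc, -, hord⟩ := H39.exists_ram_inertia q F L
  have hres : galRes L (unramExt q F n) ψ = φ ^ f :=
    H39.frob_restrict L (unramExt q F n) f hresc φ hφfrob hφuniq ψ hψfrob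
  -- orders and degrees
  have hoφ : orderOf φ = n := by
    rw [orderOf_eq_card_of_forall_mem_zpowers hφgen, IsGalois.card_aut_eq_finrank, hUdeg]
  have hfn : f ∣ n := (Dvd.intro_left e hef).trans hLn
  have hoψ : orderOf ψ = n / f := by
    rw [← orderOf_injective (galRes L (unramExt q F n)) (galRes_injective L _) ψ, hres,
      orderOf_pow' φ hf0.ne', hoφ, Nat.gcd_eq_right hfn]
  have hfo : f * orderOf ψ = orderOf φ := by rw [hoψ, hoφ, Nat.mul_div_cancel' hfn]
  have hULdeg : Module.finrank L (extendScalars (le_sup_left : L ≤ L ⊔ unramExt q F n)) =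
      n / f := by
    rw [← IsGalois.card_aut_eq_finrank, ← orderOf_eq_card_of_forall_mem_zpowers hψgen, hoψ]
  -- (S2): the restriction of the unramified class
  have hS2 := resH2_inflH2_cycClass L (unramExt q F n) φ hφgen ψ hψgen f hres hfo a
  have hw : inv q (extendScalars (le_sup_left : L ≤ L ⊔ unramExt q F n))
      ((resH2 (le_sup_left : L ≤ L ⊔ unramExt q F n)).hom
        ((inflH2 (le_sup_right : unramExt q F n ≤ L ⊔ unramExt q F n)).hom
          (cycClass (Rep.ofAlgebraAutOnUnits F (unramExt q F n)) φ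
            (baseUnit (unramExt q F n) a)))) =
      ((((e : ℤ) * ord q (a : F) : ℤ) : ℚ) / ((n / f : ℕ) : ℚ) : ℚ) := by
    rw [hS2, hInvUnr L _ hULunr ψ hψfrob (Units.map (algebraMap F L : F →* L) a), hULdeg]
    have h1 : ord q ((Units.map (algebraMap F L : F →* L) a : Lˣ) : L) = (e : ℤ) * ord q (a : F) :=
      hord (a : F) a.ne_zero
    rw [h1]
  -- the big field `E ⊔ U` over `L`
  have hLE' : L ≤ E ⊔ unramExt q F n := h.trans le_sup_left
  haveI : IsGalois F ↥(E ⊔ unramExt q F n) := ⟨⟩
  have hBfin : FiniteDimensional L (extendScalars hLE') :=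
    H93.finiteDimensional_extendScalars hLE'
  have hBgal : IsGalois L (extendScalars hLE') := isGalois_extendScalars hLE'
  have hEB : extendScalars h ≤ extendScalars hLE' :=
    (extendScalars_le_extendScalars_iff h hLE').mpr le_sup_left
  have hUB : extendScalars (le_sup_left : L ≤ L ⊔ unramExt q F n) ≤ extendScalars hLE' :=
    (extendScalars_le_extendScalars_iff _ hLE').mpr (sup_le hLE' le_sup_right)
  -- functoriality
  have h1 : inv q (extendScalars h) ((resH2 h).hom x) =
      inv q (extendScalars hLE') ((inflH2 hEB).hom ((resH2 h).hom x)) :=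
    (hInvInfl L (extendScalars h) (extendScalars hLE') hEB _).symm
  have h2 : (inflH2 hEB).hom ((resH2 h).hom x) =
      (resH2 hLE').hom ((inflH2 (le_sup_left : E ≤ E ⊔ unramExt q F n)).hom x) :=
    congrArg (fun m => m.hom x)
      (resH2_inflH2_comm (L := L) (M := E) (N := E ⊔ unramExt q F n) h le_sup_left)
  have h3 : (resH2 hLE').hom
      ((inflH2 (le_sup_right : unramExt q F n ≤ E ⊔ unramExt q F n)).hom
        (cycClass (Rep.ofAlgebraAutOnUnits F (unramExt q F n)) φ
          (baseUnit (unramExt q F n) a))) =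
      (inflH2 hUB).hom ((resH2 (le_sup_left : L ≤ L ⊔ unramExt q F n)).hom
        ((inflH2 (le_sup_right : unramExt q F n ≤ L ⊔ unramExt q F n)).hom
          (cycClass (Rep.ofAlgebraAutOnUnits F (unramExt q F n)) φ
            (baseUnit (unramExt q F n) a)))) :=
    congrArg (fun m => m.hom (cycClass (Rep.ofAlgebraAutOnUnits F (unramExt q F n)) φ
        (baseUnit (unramExt q F n) a)))
      (inflH2_resH2_sup (L := L) (U := unramExt q F n) (N := E ⊔ unramExt q F n) hLE'
        le_sup_right)
  have h4 := hInvInfl L (extendScalars (le_sup_left : L ≤ L ⊔ unramExt q F n))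
    (extendScalars hLE') hUB
    ((resH2 (le_sup_left : L ≤ L ⊔ unramExt q F n)).hom
        ((inflH2 (le_sup_right : unramExt q F n ≤ L ⊔ unramExt q F n)).hom
          (cycClass (Rep.ofAlgebraAutOnUnits F (unramExt q F n)) φ
            (baseUnit (unramExt q F n) a))))
  rw [h1, h2, ← hy, ← hby, h3, h4, hw, hC, ← AddCircle.coe_nsmul]
  congr 1
  obtain ⟨m, hm⟩ := hfn
  have hm0 : m ≠ 0 := by
    rintro rfl
    rw [mul_zero] at hm
    exact hn.ne' hm
  have h5 : n / f = m := by rw [hm]; exact Nat.mul_div_cancel_left m hf0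
  have h6 : (n : ℚ) = (f : ℚ) * (m : ℚ) := by rw [hm]; push_cast; ring
  have hf0' : (f : ℚ) ≠ 0 := Nat.cast_ne_zero.mpr hf0.ne'
  have hm0' : (m : ℚ) ≠ 0 := Nat.cast_ne_zero.mpr hm0
  rw [h5, h6, nsmul_eq_mul, ← hef]
  push_cast
  field_simp

/-- **`LeafInvRes`** (V6): restriction multiplies the invariant by the degree. -/
theorem leafInvRes_of (hInv : LeafInv q) (hInvUnr : LeafInvUnr q) (hInvInfl : LeafInvInfl q)
    (hUnram : LeafUnram q) (hUU : LeafUnramUnique q) (hFrob : LeafFrob q)
    (hH2Unram : LeafH2Unram q) (hH2Le : LeafH2Le q) (hInflInj : LeafInflInj q)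
    (hInfRes : LeafInfRes q) (hResInfl : LeafResInflUnram q) : LeafInvRes q := by
  intro F _ _ _ _ _ L E _ _ _ h _ _ x
  have hn0 : 0 < Module.finrank F E := Module.finrank_pos
  obtain ⟨hUfin, hUdeg, hUgal, -, hUunr⟩ := hUnram F (Module.finrank F E) hn0
  haveI := hUfin
  haveI := hUgal
  obtain ⟨y, hy⟩ := exists_unram_lift hUnram hH2Unram hH2Le hInflInj hInfRes hResInfl F E x
  exact invRes_core hInv hInvUnr hInvInfl hUnram hUU hFrob F L E h (Module.finrank F E) hn0
    (IntermediateField.finrank_dvd_of_le_right h) hUdeg hUunr x y hy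

end Fermat.Agent.S55.H69
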