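import Fermat.Agent.S55.H69.CycResUnram

/-!
# Program C / C3, helper69: restriction commutes with inflation (piece (S1) of `LeafInvRes`)

For `L ≤ M ≤ N` intermediate fields of `Ω / F` with `M / F` normal:
`res_{L ≤ M} ≫ infl_{M/L ≤ N/L} = infl_{M ≤ N} ≫ res_{L ≤ N}` as maps
`H²(Gal(M/F), Mˣ) → H²(Gal(N/L), Nˣ)`; and `N/L` is Galois when `N/F` is.
-/

set_option autoImplicit false

noncomputable section

namespace Fermat.Agent.S55.H69

open IntermediateField CategoryTheory groupCohomology Rep
open Fermat.Agent.S55.H66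

variable {q : ℕ} [Fact q.Prime]
variable {F : Type} [Field F] [Algebra F (PadicAlgCl q)]
variable {L M N : IntermediateField F (PadicAlgCl q)}

/-- `M / L` is Galois when `M / F` is. -/
theorem isGalois_extendScalars (h : L ≤ M) [IsGalois F M] : IsGalois L (extendScalars h) := by
  have : IsGalois F (extendScalars h) := IsGalois.of_algEquiv (upEquiv h).symm
  exact IsGalois.tower_top_of_isGalois F L (extendScalars h)

/-- The underlying element of `Ω` of an element of the Galois module `Mˣ`. -/
def valOf {K : Type} [Field K] [Algebra K (PadicAlgCl q)] (E : IntermediateField K (PadicAlgCl q))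
    (x : Rep.ofAlgebraAutOnUnits K E) : PadicAlgCl q :=
  (((Additive.toMul (Rep.toAdditive x) : Eˣ) : E) : PadicAlgCl q)

theorem valOf_injective {K : Type} [Field K] [Algebra K (PadicAlgCl q)]
    (E : IntermediateField K (PadicAlgCl q)) : Function.Injective (valOf (q := q) E) := by
  intro x y hxy
  apply Rep.toAdditive.injective
  apply Additive.toMul.injective
  apply Units.ext
  exact Subtype.ext hxy

/-- The two composites `Gal(N/L) → Gal(M/F)` agree. -/
theorem upHom_comp_resHom [Normal F M] (hLM : L ≤ M) (hMN : M ≤ N)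
    [Normal L (extendScalars hLM)] :
    (upHom hLM).comp (resHom ((extendScalars_le_extendScalars_iff hLM (hLM.trans hMN)).mpr hMN)) =
      (resHom hMN).comp (upHom (hLM.trans hMN)) := by
  ext σ x
  rw [MonoidHom.comp_apply, MonoidHom.comp_apply, upHom_apply_coe, resHom_apply, resHom_apply,
    upHom_apply_coe]
  congr 2
  apply Subtype.ext
  rw [upEquiv_symm_apply_coe]
  show (((upEquiv hLM).symm x : extendScalars hLM) : PadicAlgCl q) = (x : PadicAlgCl q)
  rw [upEquiv_symm_apply_coe]

/-- **(S1)**: restriction commutes with inflation. -/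
theorem resH2_inflH2_comm [Normal F M] (hLM : L ≤ M) (hMN : M ≤ N)
    [Normal L (extendScalars hLM)] :
    resH2 hLM ≫ inflH2 ((extendScalars_le_extendScalars_iff hLM (hLM.trans hMN)).mpr hMN) =
      inflH2 hMN ≫ resH2 (hLM.trans hMN) := by
  unfold inflH2 resH2
  rw [← groupCohomology.map_comp, ← groupCohomology.map_comp]
  refine groupCohomology.map_congr (upHom_comp_resHom hLM hMN) ?_ 2
  apply LinearMap.ext
  intro u
  apply valOf_injective
  refine Eq.trans (upEquiv_symm_apply_coe hLM
    ((Additive.toMul (show Additive Mˣ from u) : Mˣ) : M)) (Eq.symm ?_)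
  exact upEquiv_symm_apply_coe (hLM.trans hMN)
    (inclusion hMN ((Additive.toMul (show Additive Mˣ from u) : Mˣ) : M))

section Triangle

variable {L U N : IntermediateField F (PadicAlgCl q)}

/-- The two composites `Gal(N/L) → Gal(U/F)` agree. -/
theorem resHom_comp_upHom_sup [Normal F U] (hL : L ≤ N) (hU : U ≤ N)
    [Normal L (extendScalars (le_sup_left : L ≤ L ⊔ U))] :
    (resHom hU).comp (upHom hL) =
      ((resHom (le_sup_right : U ≤ L ⊔ U)).comp (upHom (le_sup_left : L ≤ L ⊔ U))).comp
        (resHom ((extendScalars_le_extendScalars_iff (le_sup_left : L ≤ L ⊔ U) hL).mpr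
          (sup_le hL hU))) := by
  ext σ x
  rw [MonoidHom.comp_apply, MonoidHom.comp_apply, MonoidHom.comp_apply, resHom_apply,
    upHom_apply_coe, resHom_apply, upHom_apply_coe, resHom_apply]
  congr 2
  apply Subtype.ext
  rw [upEquiv_symm_apply_coe]
  show _ = (((upEquiv (le_sup_left : L ≤ L ⊔ U)).symm
    (inclusion (le_sup_right : U ≤ L ⊔ U) x) : extendScalars (le_sup_left : L ≤ L ⊔ U)) :
      PadicAlgCl q)
  rw [upEquiv_symm_apply_coe]
  rfl

/-- **(S1')**: inflation from `U` to `N` followed by restriction to `L` factors through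
`LU / L`. -/
theorem inflH2_resH2_sup [Normal F U] (hL : L ≤ N) (hU : U ≤ N)
    [Normal L (extendScalars (le_sup_left : L ≤ L ⊔ U))] :
    inflH2 hU ≫ resH2 hL =
      (inflH2 (le_sup_right : U ≤ L ⊔ U) ≫ resH2 (le_sup_left : L ≤ L ⊔ U)) ≫
        inflH2 ((extendScalars_le_extendScalars_iff (le_sup_left : L ≤ L ⊔ U) hL).mpr
          (sup_le hL hU)) := by
  unfold inflH2 resH2
  rw [← groupCohomology.map_comp, ← groupCohomology.map_comp, ← groupCohomology.map_comp]
  refine groupCohomology.map_congr (resHom_comp_upHom_sup hL hU) ?_ 2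
  apply LinearMap.ext
  intro u
  apply valOf_injective
  refine Eq.trans (upEquiv_symm_apply_coe hL
    (inclusion hU ((Additive.toMul (show Additive Uˣ from u) : Uˣ) : U))) (Eq.symm ?_)
  exact upEquiv_symm_apply_coe (le_sup_left : L ≤ L ⊔ U)
    (inclusion (le_sup_right : U ≤ L ⊔ U) ((Additive.toMul (show Additive Uˣ from u) : Uˣ) : U))

end Triangle

end Fermat.Agent.S55.H69
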