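import Fermat.Agent.S55.H69.UnitGroup

/-!
# Program C / C3 leaf L4, abstract core (helper69): the approximation steps

In the setting `UnitData G O ϖ θ N`, for `j ≥ N + 1`:
* `norm_step`: a `G`-fixed element of `V j` is a norm from `V j` modulo `V (j+1)`;
* `sigma_step`: (`G = ⟨σ⟩`) an element of `V j` of norm `1` is `σ w / w`, `w ∈ V j`, modulo
  `V (j+1)`;
* `exists_limit`: infinite products `∏ a k`, `a k ∈ V (i + k)`, converge in `V i`.
-/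

set_option autoImplicit false

namespace Fermat.Agent.S55.H69

variable {L : Type*} [Field L] {G : Type*} [Group G] [Fintype G] [MulSemiringAction G L]

namespace UnitData

variable {O : Subring L} {ϖ θ : L} {N : ℕ}

/-- The norm of `1 + ϖ^j m` modulo `ϖ^(2j)`. -/
theorem exists_nm_one_add_eq (h : UnitData G O ϖ θ N) (j : ℕ) {m : L} (hm : m ∈ O) :
    ∃ E ∈ O, nm G (1 + ϖ ^ j * m) = 1 + ϖ ^ j * ∑ g : G, g • m + (ϖ ^ j) ^ 2 * E := by
  obtain ⟨E, hE, hEq⟩ := exists_prod_one_add_eq O (Finset.univ : Finset G) (ϖ ^ j)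
    (h.pi_pow_mem j) (fun g => g • m) (fun g => h.smul_mem g m hm)
  refine ⟨E, hE, ?_⟩
  rw [← hEq, nm_apply]
  refine Finset.prod_congr rfl fun g _ => ?_
  rw [smul_add, smul_one, smul_mul', h.smul_pi_pow]

/-- **Norm step.** -/
theorem norm_step (h : UnitData G O ϖ θ N) {j : ℕ} (hj : N + 1 ≤ j) {b : L}
    (hb : b ∈ Vset G O ϖ θ j) (hfix : ∀ g : G, g • b = b) :
    ∃ w ∈ Vset G O ϖ θ j, b * (nm G w)⁻¹ ∈ Vset G O ϖ θ (j + 1) := by
  obtain ⟨m, hm, rfl⟩ := hb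
  have hmfix : ∀ g : G, g • m = m := by
    intro g
    have h1 := hfix g
    rw [smul_add, smul_one, smul_mul', h.smul_pi_pow] at h1
    exact mul_left_cancel₀ (h.pi_pow_ne j) (add_left_cancel h1)
  obtain ⟨r, hr, hmr⟩ := h.exists_eq_mul_trace_of_fixed hm hmfix
  have hw : 1 + ϖ ^ j * (r * θ) ∈ Vset G O ϖ θ j := ⟨r * θ, fixed_mul_theta_mem hr, rfl⟩
  refine ⟨1 + ϖ ^ j * (r * θ), hw, ?_⟩
  obtain ⟨E, hE, hEq⟩ := h.exists_nm_one_add_eq j (O.mul_mem hr.1 h.theta_mem)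
  have htr : ∑ g : G, g • (r * θ) = m := by
    rw [hmr, Finset.mul_sum]
    exact Finset.sum_congr rfl fun g _ => by rw [smul_mul', hr.2 g]
  rw [htr] at hEq
  have hnmV := h.nm_mem_Vset (by omega : N ≤ j) hw
  have hnm0 := h.ne_zero_of_mem_Vset (by omega : 1 ≤ j) hnmV
  have hnminv := h.inv_mem_O_of_mem_Vset (by omega : 1 ≤ j) hnmV
  have h1 : (1 + ϖ ^ j * m) * (nm G (1 + ϖ ^ j * (r * θ)))⁻¹ =
      1 + ϖ ^ (2 * j) * (-E * (nm G (1 + ϖ ^ j * (r * θ)))⁻¹) := by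
    have h2 : 1 + ϖ ^ j * m = nm G (1 + ϖ ^ j * (r * θ)) - (ϖ ^ j) ^ 2 * E := by
      rw [hEq]; ring
    rw [h2, sub_mul, mul_inv_cancel₀ hnm0]
    ring
  rw [h1]
  exact h.one_add_mem_Vset (by omega) (O.mul_mem (O.neg_mem hE) hnminv)

/-- `g • θ - θ ∈ (σ - 1) M` when `σ` generates `G`. -/
theorem exists_smul_sub_eq (σ : G) (hσ : ∀ g : G, g ∈ Subgroup.zpowers σ) (g : G) :
    ∃ t ∈ lat G O θ, g • θ - θ = σ • t - t := by
  have h1 : g ∈ Submonoid.powers σ := mem_powers_iff_mem_zpowers.mpr (hσ g)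
  obtain ⟨k, rfl⟩ := h1
  refine ⟨∑ i ∈ Finset.range k, σ ^ i • θ,
    (lat G O θ).sum_mem fun i _ => smul_theta_mem (σ ^ i), ?_⟩
  rw [Finset.smul_sum, ← Finset.sum_sub_distrib]
  have h2 : ∀ i ∈ Finset.range k, σ • σ ^ i • θ - σ ^ i • θ = σ ^ (i + 1) • θ - σ ^ i • θ := by
    intro i _
    rw [← mul_smul, ← pow_succ']
  rw [Finset.sum_congr rfl h2, Finset.sum_range_sub (fun i => σ ^ i • θ) k, pow_zero, one_smul]

/-- **Step for `σ - 1`** (cyclic case). -/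
theorem sigma_step (h : UnitData G O ϖ θ N) (σ : G) (hσ : ∀ g : G, g ∈ Subgroup.zpowers σ)
    {j : ℕ} (hj : N + 1 ≤ j) {b : L} (hb : b ∈ Vset G O ϖ θ j) (hnm : nm G b = 1) :
    ∃ w ∈ Vset G O ϖ θ j, b * (σ • w / w)⁻¹ ∈ Vset G O ϖ θ (j + 1) := by
  obtain ⟨m, hm, rfl⟩ := hb
  have hmO := h.lat_le hm
  obtain ⟨a, ha, rfl⟩ := hm
  have hafix : ∀ g k : G, k • a g = a g := fun g k => (ha g).2 k
  set s : L := ∑ g, a g with hs
  have hsR : s ∈ fixedO G O := (fixedO G O).sum_mem fun g _ => ha g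
  -- (1)-(2): the trace of `m` is divisible by `ϖ^j`
  obtain ⟨E, hE, hEq⟩ := h.exists_nm_one_add_eq j hmO
  rw [hnm, sum_smul_comb θ a hafix] at hEq
  have htr : s * ∑ g : G, g • θ = -(ϖ ^ j * E) := by
    have h1 : ϖ ^ j * (s * ∑ g : G, g • θ + ϖ ^ j * E) = 0 := by
      have : (1 : L) = 1 + ϖ ^ j * (s * ∑ g : G, g • θ) + (ϖ ^ j) ^ 2 * E := hEq
      linear_combination -this
    have h2 := (mul_eq_zero.mp h1).resolve_left (h.pi_pow_ne j)
    linear_combination h2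
  -- (3): `s ∈ ϖ R`
  obtain ⟨e, he, hEe⟩ := h.pi_pow_mul_mem_lat hE
  obtain ⟨d, rfl⟩ := Nat.exists_eq_add_of_le hj
  have hcoef : ∀ g : G, ϖ ^ N * s + ϖ ^ (N + 1 + d) * e g = 0 := by
    refine h.indep _ (fun g k => ?_) ?_
    · rw [smul_add, smul_mul', smul_mul', h.smul_pi_pow, h.smul_pi_pow, hsR.2 k, (he g).2 k]
    · have h1 : ∑ g : G, (ϖ ^ N * s + ϖ ^ (N + 1 + d) * e g) * g • θ =
          ϖ ^ N * (s * ∑ g : G, g • θ) + ϖ ^ (N + 1 + d) * comb G θ e := by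
        simp only [comb, Finset.mul_sum, add_mul, Finset.sum_add_distrib, mul_assoc]
      rw [h1, htr, ← hEe]
      ring
  set s' : L := -(ϖ ^ d * e 1) with hs'
  have hs'R : s' ∈ fixedO G O :=
    (fixedO G O).neg_mem ((fixedO G O).mul_mem (h.pi_pow_mem_fixed d) (he 1))
  have hss' : s = ϖ * s' := by
    have h1 := hcoef 1
    have h2 : ϖ ^ N * (s + ϖ ^ (1 + d) * e 1) = 0 := by
      rw [← h1]; ring
    have h3 := (mul_eq_zero.mp h2).resolve_left (h.pi_pow_ne N)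
    rw [hs']
    linear_combination h3
  -- (4)-(5): `m - s θ ∈ (σ - 1) M`
  have hex : ∀ g : G, ∃ t ∈ lat G O θ, g • θ - θ = σ • t - t := exists_smul_sub_eq σ hσ
  choose t ht hteq using hex
  set m' : L := ∑ g, a g * t g with hm'
  have hm'M : m' ∈ lat G O θ :=
    (lat G O θ).sum_mem fun g _ => fixed_mul_mem_lat (ha g) (ht g)
  have hm'O := h.lat_le hm'M
  have hσm' : σ • m' - m' = comb G θ a - s * θ := by
    rw [hm', Finset.smul_sum, ← Finset.sum_sub_distrib, hs, Finset.sum_mul, comb,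
      ← Finset.sum_sub_distrib]
    refine Finset.sum_congr rfl fun g _ => ?_
    rw [smul_mul', hafix g σ, ← mul_sub, ← hteq g, mul_sub]
  -- (6): the element `w`
  have hw : 1 + ϖ ^ (N + 1 + d) * m' ∈ Vset G O ϖ θ (N + 1 + d) := ⟨m', hm'M, rfl⟩
  refine ⟨1 + ϖ ^ (N + 1 + d) * m', hw, ?_⟩
  have hσw := h.smul_mem_Vset hw σ
  have hw0 := h.ne_zero_of_mem_Vset (by omega : 1 ≤ N + 1 + d) hw
  have hσw0 := h.ne_zero_of_mem_Vset (by omega : 1 ≤ N + 1 + d) hσw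
  have hDinv := h.inv_mem_Vset (by omega : N ≤ N + 1 + d) (by omega : 1 ≤ N + 1 + d) hσw
  have hDinvO := h.inv_mem_O_of_mem_Vset (by omega : 1 ≤ N + 1 + d) hσw
  obtain ⟨m₃, hm₃, hm₃eq⟩ := hDinv
  have hm₃O := h.lat_le hm₃
  have hσweq : σ • (1 + ϖ ^ (N + 1 + d) * m') = 1 + ϖ ^ (N + 1 + d) * σ • m' := by
    rw [smul_add, smul_one, smul_mul', h.smul_pi_pow]
  set D : L := σ • (1 + ϖ ^ (N + 1 + d) * m') with hD
  have hkey : (1 + ϖ ^ (N + 1 + d) * comb G θ a) * (D / (1 + ϖ ^ (N + 1 + d) * m'))⁻¹ =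
      1 + ϖ ^ (N + 1 + d + 1) * (s' * θ + ϖ ^ (N + 1 + d) * (s' * θ * m₃) +
        ϖ ^ (N + d) * (comb G θ a * m' * D⁻¹)) := by
    have h1 : (1 + ϖ ^ (N + 1 + d) * comb G θ a) * (1 + ϖ ^ (N + 1 + d) * m') - D =
        ϖ ^ (N + 1 + d + 1) * (s' * θ) +
          ϖ ^ (N + 1 + d + 1) * (ϖ ^ (N + d) * (comb G θ a * m')) := by
      have h2 : comb G θ a = σ • m' - m' + ϖ * s' * θ := by rw [hσm', hss']; ring
      rw [hσweq]
      have e1 : ϖ ^ (N + 1 + d + 1) = ϖ ^ (N + 1 + d) * ϖ := pow_succ _ _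
      have e2 : ϖ ^ (N + 1 + d) = ϖ ^ (N + d) * ϖ := by
        rw [← pow_succ]; congr 1; omega
      rw [e1]
      linear_combination (ϖ ^ (N + 1 + d) + ϖ ^ (N + 1 + d) * ϖ ^ (N + 1 + d) * m' -
        ϖ ^ (N + 1 + d) * ϖ ^ (N + d) * ϖ * m') * h2 +
        (ϖ ^ (N + 1 + d) * comb G θ a * m' - ϖ * ϖ ^ (N + d) * comb G θ a * m') * e2
    have h3 : (1 + ϖ ^ (N + 1 + d) * comb G θ a) * (D / (1 + ϖ ^ (N + 1 + d) * m'))⁻¹ =
        1 + ((1 + ϖ ^ (N + 1 + d) * comb G θ a) * (1 + ϖ ^ (N + 1 + d) * m') - D) * D⁻¹ := by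
      rw [inv_div, sub_mul, mul_inv_cancel₀ hσw0]
      field_simp
      ring
    rw [h3, h1]
    have h4 : D⁻¹ = 1 + ϖ ^ (N + 1 + d) * m₃ := hm₃eq
    have e1 : ϖ ^ (N + 1 + d + 1) * (s' * θ) * D⁻¹ =
        ϖ ^ (N + 1 + d + 1) * (s' * θ) + ϖ ^ (N + 1 + d + 1) * (ϖ ^ (N + 1 + d) * (s' * θ * m₃)) := by
      rw [h4]; ring
    rw [add_mul, e1]
    ring
  rw [hkey]
  refine ⟨_, (lat G O θ).add_mem ((lat G O θ).add_mem (fixed_mul_theta_mem hs'R)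
    (h.pi_pow_mul_mem_lat' (by omega) (O.mul_mem (O.mul_mem hs'R.1 h.theta_mem) hm₃O)))
    (h.pi_pow_mul_mem_lat' (by omega) (O.mul_mem (O.mul_mem hmO hm'O) hDinvO)), rfl⟩

/-- **Completeness**: infinite products converge. -/
theorem exists_limit (h : UnitData G O ϖ θ N) {i : ℕ} (hi : N + 1 ≤ i) (a : ℕ → L)
    (ha : ∀ k, a k ∈ Vset G O ϖ θ (i + k)) :
    ∃ z ∈ Vset G O ϖ θ i, ∀ k, z * (∏ j ∈ Finset.range k, a j)⁻¹ ∈ Vset G O ϖ θ (i + k) := by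
  classical
  set P : ℕ → L := fun k => ∏ j ∈ Finset.range k, a j with hP
  have hPV : ∀ k, P k ∈ Vset G O ϖ θ i := fun k =>
    h.prod_mem_Vset (by omega) _ _ fun j _ => h.Vset_add_subset j (ha j)
  have hPO : ∀ k, P k ∈ O := fun k => h.Vset_subset (hPV k)
  have hP0 : ∀ k, P k ≠ 0 := fun k => h.ne_zero_of_mem_Vset (by omega) (hPV k)
  have hPinv : ∀ k, (P k)⁻¹ ∈ O := fun k => h.inv_mem_O_of_mem_Vset (by omega) (hPV k)
  have ham : ∀ k, ∃ m ∈ lat G O θ, a k = 1 + ϖ ^ (i + k) * m := fun k => ha k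
  choose mk hmk hak using ham
  set c : ℕ → L := fun k => P k * mk k with hc
  have hcO : ∀ k, c k ∈ O := fun k => O.mul_mem (hPO k) (h.lat_le (hmk k))
  have hPsum : ∀ k, P k = 1 + ϖ ^ i * ∑ j ∈ Finset.range k, ϖ ^ j * c j := by
    intro k
    induction k with
    | zero => simp [hP]
    | succ k ih =>
      have h1 : P (k + 1) = P k * a k := Finset.prod_range_succ _ _
      rw [h1, hak k, Finset.sum_range_succ, mul_add, mul_add, ← add_assoc, ← ih, mul_one, hc]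
      ring
  obtain ⟨z', hz', hzk⟩ := h.complete c hcO
  have hzP : ∀ k, ∃ d ∈ O, 1 + ϖ ^ i * z' - P k = ϖ ^ (i + k) * d := by
    intro k
    obtain ⟨d, hd, hdk⟩ := hzk k
    refine ⟨d, hd, ?_⟩
    rw [hPsum k, pow_add, mul_assoc, ← hdk]
    ring
  have hmain : ∀ k, (1 + ϖ ^ i * z') * (P k)⁻¹ ∈ Vset G O ϖ θ (i + k) := by
    intro k
    obtain ⟨d, hd, hdk⟩ := hzP (k + N)
    have h1 : (1 + ϖ ^ i * z') * (P k)⁻¹ =
        (1 + ϖ ^ (i + k + N) * (d * (P (k + N))⁻¹)) * (P (k + N) * (P k)⁻¹) := by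
      have h2 : 1 + ϖ ^ i * z' = P (k + N) + ϖ ^ (i + (k + N)) * d := by rw [← hdk]; ring
      rw [h2, add_assoc i k N]
      field_simp [hP0 (k + N), hP0 k]
    rw [h1]
    refine h.mul_mem_Vset (by omega) (h.one_add_mem_Vset (le_refl _)
      (O.mul_mem hd (hPinv (k + N)))) ?_
    have h3 : P (k + N) * (P k)⁻¹ = ∏ j ∈ Finset.Ico k (k + N), a j := by
      rw [mul_inv_eq_iff_eq_mul₀ (hP0 k), mul_comm]
      exact (Finset.prod_range_mul_prod_Ico a (Nat.le_add_right k N)).symm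
    rw [h3]
    refine h.prod_mem_Vset (by omega) _ _ fun j hj => ?_
    have hjk : k ≤ j := (Finset.mem_Ico.mp hj).1
    exact h.Vset_mono (by omega : i + k ≤ i + j) (ha j)
  refine ⟨1 + ϖ ^ i * z', ?_, hmain⟩
  have h0 := hmain 0
  simpa [hP] using h0

end UnitData

end Fermat.Agent.S55.H69
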