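import Fermat.Agent.S55.H69.FiltSurj
import Fermat.Agent.S55.H69.UnitStep

/-!
# Program C / C3 leaf L4, abstract core (helper69): trivial cohomology of `1 + ϖ^i M`

In the setting `UnitData G O ϖ θ N` (see `UnitLat.lean`), for `i ≥ N + 1`:
* `UnitData.exists_nm_eq` (`Ĥ⁰ = 0`): every `G`-fixed element of `V i = 1 + ϖ^i M` is the norm
  of an element of `V i`;
* `UnitData.exists_smul_div_eq` (`Ĥ⁻¹ = 0`, `G = ⟨σ⟩` cyclic): every element of `V i` of norm `1`
  is `σ w / w` with `w ∈ V i`.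
Both are obtained from Serre's successive approximation lemma (`FiltSurj.lean`) and the steps of
`UnitStep.lean`.
-/

set_option autoImplicit false

namespace Fermat.Agent.S55.H69

variable {L : Type*} [Field L] {G : Type*} [Group G] [Fintype G] [MulSemiringAction G L]

/-- The `G`-fixed units. -/
def fixedUnits (G : Type*) [Group G] [MulSemiringAction G L] : Subgroup Lˣ where
  carrier := {u | ∀ g : G, g • (u : L) = u}
  mul_mem' := by
    intro u u' hu hu' g
    rw [Units.val_mul, smul_mul', hu g, hu' g]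
  one_mem' := fun g => by rw [Units.val_one, smul_one]
  inv_mem' := by
    intro u hu g
    rw [Units.val_inv_eq_inv_val, smul_inv'', hu g]

/-- The norm on units. -/
def nmU (G : Type*) [Group G] [Fintype G] [MulSemiringAction G L] : Lˣ →* Lˣ :=
  Units.map (nm G)

theorem coe_nmU (u : Lˣ) : ((nmU G u : Lˣ) : L) = nm G (u : L) := rfl

/-- The homomorphism `w ↦ σ w / w` on units. -/
def sigmaDiv (σ : G) : Lˣ →* Lˣ :=
  Units.map ((MulSemiringAction.toRingHom G L σ : L →+* L) : L →* L) / MonoidHom.id Lˣ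

theorem coe_sigmaDiv (σ : G) (u : Lˣ) : ((sigmaDiv σ u : Lˣ) : L) = σ • (u : L) / (u : L) := by
  simp only [sigmaDiv, MonoidHom.div_apply, Units.val_div_eq_div_val, Units.coe_map,
    MonoidHom.id_apply]
  rfl

theorem nm_ne_zero {w : L} (hw : w ≠ 0) : nm G w ≠ 0 := by
  rw [nm_apply]
  exact Finset.prod_ne_zero_iff.mpr fun g _ => (smul_ne_zero_iff_ne g).mpr hw

theorem nm_inv (w : L) : nm G w⁻¹ = (nm G w)⁻¹ := by
  simp only [nm_apply, smul_inv'', Finset.prod_inv_distrib]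

theorem nm_smul_div (σ : G) {w : L} (hw : w ≠ 0) : nm G (σ • w / w) = 1 := by
  have h1 : nm G (σ • w / w) * nm G w = nm G w := by
    rw [← map_mul, div_mul_cancel₀ _ hw, nm_smul]
  exact mul_right_cancel₀ (nm_ne_zero hw) (h1.trans (one_mul _).symm)

namespace UnitData

variable {O : Subring L} {ϖ θ : L} {N : ℕ}

/-- Completeness of the filtration `V (i + k)` on units. -/
theorem exists_limit_units (h : UnitData G O ϖ θ N) {i : ℕ} (hi : N + 1 ≤ i) (a : ℕ → Lˣ)
    (ha : ∀ k, (a k : L) ∈ Vset G O ϖ θ (i + k)) :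
    ∃ z : Lˣ, (z : L) ∈ Vset G O ϖ θ i ∧
      ∀ k, ((z * (∏ j ∈ Finset.range k, a j)⁻¹ : Lˣ) : L) ∈ Vset G O ϖ θ (i + k) := by
  obtain ⟨z, hz, hzk⟩ := h.exists_limit hi (fun k => (a k : L)) ha
  have hz0 := h.ne_zero_of_mem_Vset (by omega : 1 ≤ i) hz
  refine ⟨Units.mk0 z hz0, hz, fun k => ?_⟩
  rw [Units.val_mul, Units.val_inv_eq_inv_val, Units.coe_prod, Units.val_mk0]
  exact hzk k

/-- Separatedness of the filtration `V (i + k)`. -/
theorem eq_one_of_forall_mem (h : UnitData G O ϖ θ N) {i : ℕ} {b : L}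
    (hb : ∀ k, b ∈ Vset G O ϖ θ (i + k)) : b = 1 := by
  have h0 : b - 1 = 0 := by
    refine h.separated _ (O.sub_mem (h.Vset_subset (hb 0)) O.one_mem) fun k => ?_
    obtain ⟨m, hm, hbm⟩ := hb k
    refine ⟨ϖ ^ i * m, O.mul_mem (h.pi_pow_mem i) (h.lat_le hm), ?_⟩
    rw [hbm]
    ring
  exact sub_eq_zero.mp h0

/-- **`Ĥ⁰(G, 1 + ϖ^i M) = 0`**: fixed elements of `V i` are norms from `V i`. -/
theorem exists_nm_eq (h : UnitData G O ϖ θ N) {i : ℕ} (hi : N + 1 ≤ i) {u : L}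
    (hu : u ∈ Vset G O ϖ θ i) (hfix : ∀ g : G, g • u = u) :
    ∃ w ∈ Vset G O ϖ θ i, nm G w = u := by
  have hu0 := h.ne_zero_of_mem_Vset (by omega : 1 ≤ i) hu
  have key := exists_map_eq_of_graded_surj (nmU G)
    (fun k => h.V (i + k) (by omega)) (fun k => h.V (i + k) (by omega) ⊓ fixedUnits G)
    (fun k a ha => ⟨h.nm_mem_Vset (by omega) ha, fun g => smul_nm g _⟩)
    (fun k b hb => by
      obtain ⟨w, hw, hbw⟩ := h.norm_step (by omega : N + 1 ≤ i + k) hb.1 hb.2
      have hw0 := h.ne_zero_of_mem_Vset (by omega : 1 ≤ i + k) hw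
      refine ⟨Units.mk0 w hw0, hw, ?_, ?_⟩
      · show ((b * (nmU G (Units.mk0 w hw0))⁻¹ : Lˣ) : L) ∈ Vset G O ϖ θ (i + (k + 1))
        rw [Units.val_mul, Units.val_inv_eq_inv_val, coe_nmU, Units.val_mk0]
        exact hbw
      · intro g
        rw [Units.val_mul, Units.val_inv_eq_inv_val, coe_nmU, Units.val_mk0, smul_mul',
          smul_inv'', smul_nm, hb.2 g])
    (fun a ha => by
      obtain ⟨z, hz, hzk⟩ := h.exists_limit_units hi a ha
      exact ⟨z, hz, hzk⟩)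
    (fun b hb => Units.ext (h.eq_one_of_forall_mem (i := i) fun k => (hb k).1))
    (Units.mk0 u hu0) ⟨hu, hfix⟩
  obtain ⟨w, hw, hwu⟩ := key
  refine ⟨(w : L), hw, ?_⟩
  have := congrArg (fun x : Lˣ => (x : L)) hwu
  simpa [coe_nmU] using this

/-- **`Ĥ⁻¹(G, 1 + ϖ^i M) = 0`** (`G = ⟨σ⟩`): elements of `V i` of norm `1` are of the form
`σ w / w`, `w ∈ V i`. -/
theorem exists_smul_div_eq (h : UnitData G O ϖ θ N) (σ : G)
    (hσ : ∀ g : G, g ∈ Subgroup.zpowers σ) {i : ℕ} (hi : N + 1 ≤ i) {u : L}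
    (hu : u ∈ Vset G O ϖ θ i) (hnm : nm G u = 1) :
    ∃ w ∈ Vset G O ϖ θ i, σ • w / w = u := by
  have hu0 := h.ne_zero_of_mem_Vset (by omega : 1 ≤ i) hu
  have key := exists_map_eq_of_graded_surj (sigmaDiv σ)
    (fun k => h.V (i + k) (by omega)) (fun k => h.V (i + k) (by omega) ⊓ (nmU G).ker)
    (fun k a ha => by
      refine ⟨?_, ?_⟩
      · show ((sigmaDiv σ a : Lˣ) : L) ∈ Vset G O ϖ θ (i + k)
        rw [coe_sigmaDiv, div_eq_mul_inv]
        exact h.mul_mem_Vset (by omega) (h.smul_mem_Vset ha σ)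
          (h.inv_mem_Vset (by omega) (by omega) ha)
      · refine MonoidHom.mem_ker.mpr (Units.ext ?_)
        rw [coe_nmU, coe_sigmaDiv, Units.val_one]
        exact nm_smul_div σ a.ne_zero)
    (fun k b hb => by
      have hb1 : nm G (b : L) = 1 := by
        have := congrArg (fun x : Lˣ => (x : L)) (MonoidHom.mem_ker.mp hb.2)
        simpa [coe_nmU] using this
      obtain ⟨w, hw, hbw⟩ := h.sigma_step σ hσ (by omega : N + 1 ≤ i + k) hb.1 hb1
      have hw0 := h.ne_zero_of_mem_Vset (by omega : 1 ≤ i + k) hw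
      refine ⟨Units.mk0 w hw0, hw, ?_, ?_⟩
      · show ((b * (sigmaDiv σ (Units.mk0 w hw0))⁻¹ : Lˣ) : L) ∈ Vset G O ϖ θ (i + (k + 1))
        rw [Units.val_mul, Units.val_inv_eq_inv_val, coe_sigmaDiv, Units.val_mk0]
        exact hbw
      · refine MonoidHom.mem_ker.mpr (Units.ext ?_)
        rw [coe_nmU, Units.val_mul, Units.val_inv_eq_inv_val, coe_sigmaDiv, Units.val_mk0,
          map_mul, nm_inv, hb1, nm_smul_div σ hw0, inv_one, mul_one, Units.val_one])
    (fun a ha => by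
      obtain ⟨z, hz, hzk⟩ := h.exists_limit_units hi a ha
      exact ⟨z, hz, hzk⟩)
    (fun b hb => Units.ext (h.eq_one_of_forall_mem (i := i) fun k => (hb k).1))
    (Units.mk0 u hu0) ⟨hu, MonoidHom.mem_ker.mpr (Units.ext (by
      rw [coe_nmU, Units.val_mk0, hnm, Units.val_one]))⟩
  obtain ⟨w, hw, hwu⟩ := key
  refine ⟨(w : L), hw, ?_⟩
  have := congrArg (fun x : Lˣ => (x : L)) hwu
  simpa [coe_sigmaDiv] using this

end UnitData

end Fermat.Agent.S55.H69
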