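import Fermat.Agent.S55.H69.UnitCoh

/-!
# Program C / C3 leaf L4, abstract core (helper69): `UnitData` for a finite Galois extension

`unitData_of_galois`: let `L/F` be a finite Galois extension, `O` a subring of `L` stable under
`Gal(L/F)`, `ϖ ∈ F` nonzero with `ϖ ∈ O`, `L = O[1/ϖ]`, and `O` `ϖ`-adically complete and
separated (elementary form).  Then there are `θ ∈ O` and `N` with
`UnitData (L ≃ₐ[F] L) O ϖ θ N`: a normal basis generator scaled into `O`; the lattice spanned by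
its conjugates contains `ϖ^N O` by duality for the trace form.

Consequently (`exists_unit_subgroup_of_galois`) there are `θ`, `N` such that for all `i ≥ N + 1`
the groups `1 + ϖ^i M` have trivial `Ĥ⁰` and (cyclic case) trivial `Ĥ⁻¹`.
-/

set_option autoImplicit false

namespace Fermat.Agent.S55.H69

open Module

variable {F L : Type*} [Field F] [Field L] [Algebra F L] [FiniteDimensional F L] [IsGalois F L]

/-- Coordinates in a basis are traces against the dual basis for the trace form. -/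
theorem exists_dual_family {ι : Type*} [Fintype ι] (b : Basis ι F L) :
    ∃ d : ι → L, ∀ (x : L) (i : ι),
      algebraMap F L (b.repr x i) = ∑ σ : L ≃ₐ[F] L, σ x * σ (d i) := by
  classical
  have hB : (Algebra.traceForm F L).Nondegenerate := traceForm_nondegenerate F L
  have hsym : (Algebra.traceForm F L).IsSymm := Algebra.traceForm_isSymm F
  refine ⟨fun i => (Algebra.traceForm F L).dualBasis hB b i, fun x i => ?_⟩
  have h1 : b.repr x i = Algebra.traceForm F L x ((Algebra.traceForm F L).dualBasis hB b i) := by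
    have h2 := LinearMap.BilinForm.dualBasis_repr_apply hB ((Algebra.traceForm F L).dualBasis hB b)
      x i
    rw [LinearMap.BilinForm.dualBasis_dualBasis hB hsym b] at h2
    exact h2
  rw [h1, Algebra.traceForm_apply, trace_eq_sum_automorphisms]
  exact Finset.sum_congr rfl fun σ _ => map_mul σ _ _

/-- **`UnitData` for a finite Galois extension.** -/
theorem unitData_of_galois (O : Subring L) (ϖ : F) (hϖ0 : ϖ ≠ 0)
    (hϖ : algebraMap F L ϖ ∈ O)
    (hO : ∀ (g : L ≃ₐ[F] L) (x : L), x ∈ O → g x ∈ O)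
    (hloc : ∀ x : L, ∃ k : ℕ, algebraMap F L ϖ ^ k * x ∈ O)
    (hcomplete : ∀ y : ℕ → L, (∀ k, y k ∈ O) → ∃ z ∈ O, ∀ k, ∃ c ∈ O,
      z - ∑ j ∈ Finset.range k, algebraMap F L ϖ ^ j * y j = algebraMap F L ϖ ^ k * c)
    (hsep : ∀ z ∈ O, (∀ k, ∃ c ∈ O, z = algebraMap F L ϖ ^ k * c) → z = 0) :
    ∃ (θ : L) (N : ℕ), UnitData (L ≃ₐ[F] L) O (algebraMap F L ϖ) θ N := by
  classical
  have hP0 : algebraMap F L ϖ ≠ 0 := (map_ne_zero (algebraMap F L)).mpr hϖ0
  have hPfix : ∀ g : L ≃ₐ[F] L, g (algebraMap F L ϖ) = algebraMap F L ϖ := fun g => g.commutes ϖ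
  obtain ⟨d, hd⟩ := exists_dual_family (IsGalois.normalBasis F L)
  obtain ⟨k₀, hk₀⟩ := hloc (IsGalois.normalBasis F L 1)
  have hK : ∃ K : ℕ, ∀ g, algebraMap F L ϖ ^ K * d g ∈ O := by
    choose kd hkd using fun g => hloc (d g)
    refine ⟨∑ g, kd g, fun g => ?_⟩
    have hle : kd g ≤ ∑ g, kd g :=
      Finset.single_le_sum (fun _ _ => Nat.zero_le _) (Finset.mem_univ g)
    obtain ⟨e, he⟩ := Nat.exists_eq_add_of_le hle
    rw [he, pow_add, mul_comm (algebraMap F L ϖ ^ kd g), mul_assoc]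
    exact O.mul_mem (O.pow_mem hϖ e) (hkd g)
  obtain ⟨K, hK⟩ := hK
  have hsmul : ∀ g : L ≃ₐ[F] L, g • (algebraMap F L ϖ ^ k₀ * IsGalois.normalBasis F L 1) =
      algebraMap F L ϖ ^ k₀ * IsGalois.normalBasis F L g := by
    intro g
    rw [AlgEquiv.smul_def, map_mul, map_pow, hPfix, IsGalois.normalBasis_apply g]
  refine ⟨algebraMap F L ϖ ^ k₀ * IsGalois.normalBasis F L 1, K + k₀,
    { smul_mem := fun g x hx => hO g x hx
      pi_mem := hϖ
      pi_ne := hP0
      pi_fixed := hPfix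
      complete := hcomplete
      separated := hsep
      theta_mem := hk₀
      indep := ?_
      open_lat := ?_ }⟩
  · intro a hafix hsum g
    have hF : ∀ g, ∃ c : F, algebraMap F L c = a g := fun g =>
      (IsGalois.mem_range_algebraMap_iff_fixed (a g)).mpr (fun f => hafix g f)
    choose c hc using hF
    have h1 : ∑ g, (c g * ϖ ^ k₀) • IsGalois.normalBasis F L g = 0 := by
      rw [← hsum]
      refine Finset.sum_congr rfl fun g _ => ?_
      rw [hsmul, Algebra.smul_def, map_mul, map_pow, hc, mul_assoc]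
    have h2 := Fintype.linearIndependent_iff.mp (IsGalois.normalBasis F L).linearIndependent _ h1 g
    have h3 : c g = 0 := (mul_eq_zero.mp h2).resolve_right (pow_ne_zero _ hϖ0)
    rw [← hc g, h3, map_zero]
  · intro x hx
    refine ⟨fun g => algebraMap F L ϖ ^ K * algebraMap F L ((IsGalois.normalBasis F L).repr x g),
      fun g => ?_, fun g f => ?_, ?_⟩
    · beta_reduce
      rw [hd x g, Finset.mul_sum]
      refine O.sum_mem fun σ _ => ?_
      have h1 : algebraMap F L ϖ ^ K * (σ x * σ (d g)) =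
          σ x * σ (algebraMap F L ϖ ^ K * d g) := by
        rw [map_mul, map_pow, hPfix]; ring
      rw [h1]
      exact O.mul_mem (hO σ x hx) (hO σ _ (hK g))
    · beta_reduce
      rw [AlgEquiv.smul_def, map_mul, map_pow, hPfix, AlgEquiv.commutes]
    · have hx' : x = ∑ g, algebraMap F L ((IsGalois.normalBasis F L).repr x g) *
          IsGalois.normalBasis F L g := by
        conv_lhs => rw [← (IsGalois.normalBasis F L).sum_repr x]
        exact Finset.sum_congr rfl fun g _ => Algebra.smul_def _ _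
      conv_lhs => rw [hx']
      rw [Finset.mul_sum]
      refine Finset.sum_congr rfl fun g _ => ?_
      rw [hsmul, pow_add]
      ring

/-- The norm `nm` for the Galois group is the field norm. -/
theorem nm_eq_algebraMap_norm (x : L) :
    nm (L ≃ₐ[F] L) x = algebraMap F L (Algebra.norm F x) := by
  rw [Algebra.norm_eq_prod_automorphisms, nm_apply]
  rfl

/-- **The cohomologically trivial subgroup of units** (pure Mathlib vocabulary): in the setting
of `unitData_of_galois` there are `M` and a subgroup `V` of `Lˣ` such that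
* `V` consists of units of `O` and is stable under the Galois group;
* `V ⊇ 1 + ϖ^M O`;
* every Galois-fixed element of `V` is the norm of an element of `V`;
* if `σ` generates the Galois group, every element of `V` of norm `1` is `σ w / w`, `w ∈ V`. -/
theorem exists_unit_subgroup_of_galois (O : Subring L) (ϖ : F) (hϖ0 : ϖ ≠ 0)
    (hϖ : algebraMap F L ϖ ∈ O)
    (hO : ∀ (g : L ≃ₐ[F] L) (x : L), x ∈ O → g x ∈ O)
    (hloc : ∀ x : L, ∃ k : ℕ, algebraMap F L ϖ ^ k * x ∈ O)
    (hcomplete : ∀ y : ℕ → L, (∀ k, y k ∈ O) → ∃ z ∈ O, ∀ k, ∃ c ∈ O,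
      z - ∑ j ∈ Finset.range k, algebraMap F L ϖ ^ j * y j = algebraMap F L ϖ ^ k * c)
    (hsep : ∀ z ∈ O, (∀ k, ∃ c ∈ O, z = algebraMap F L ϖ ^ k * c) → z = 0) :
    ∃ (M : ℕ) (V : Subgroup Lˣ),
      (∀ u ∈ V, (u : L) ∈ O ∧ ((u⁻¹ : Lˣ) : L) ∈ O) ∧
      (∀ (g : L ≃ₐ[F] L), ∀ u ∈ V, Units.map (g : L →* L) u ∈ V) ∧
      (∀ u : Lˣ, (∃ e ∈ O, (u : L) = 1 + algebraMap F L ϖ ^ M * e) → u ∈ V) ∧
      (∀ u ∈ V, (∀ g : L ≃ₐ[F] L, g (u : L) = u) →
        ∃ w ∈ V, algebraMap F L (Algebra.norm F (w : L)) = u) ∧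
      (∀ σ : L ≃ₐ[F] L, (∀ g : L ≃ₐ[F] L, g ∈ Subgroup.zpowers σ) →
        ∀ u ∈ V, Algebra.norm F (u : L) = 1 → ∃ w ∈ V, σ (w : L) / (w : L) = u) := by
  obtain ⟨θ, N, h⟩ := unitData_of_galois O ϖ hϖ0 hϖ hO hloc hcomplete hsep
  refine ⟨N + 1 + N, h.V (N + 1) le_rfl, fun u hu => ⟨h.Vset_subset hu, ?_⟩, fun g u hu => ?_,
    fun u hu => ?_, fun u hu hfix => ?_, fun σ hσ u hu hnm => ?_⟩
  · rw [Units.val_inv_eq_inv_val]
    exact h.inv_mem_O_of_mem_Vset (Nat.le_add_left 1 N) hu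
  · exact h.smul_mem_Vset hu g
  · obtain ⟨e, he, hue⟩ := hu
    show (u : L) ∈ Vset (L ≃ₐ[F] L) O (algebraMap F L ϖ) θ (N + 1)
    rw [hue]
    exact h.one_add_mem_Vset le_rfl he
  · obtain ⟨w, hw, hwu⟩ := h.exists_nm_eq le_rfl hu hfix
    have hw0 := h.ne_zero_of_mem_Vset (Nat.le_add_left 1 N) hw
    refine ⟨Units.mk0 w hw0, hw, ?_⟩
    rw [Units.val_mk0, ← nm_eq_algebraMap_norm]
    exact hwu
  · have hnm' : nm (L ≃ₐ[F] L) (u : L) = 1 := by
      rw [nm_eq_algebraMap_norm, hnm, map_one]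
    obtain ⟨w, hw, hwu⟩ := h.exists_smul_div_eq σ hσ le_rfl hu hnm'
    have hw0 := h.ne_zero_of_mem_Vset (Nat.le_add_left 1 N) hw
    exact ⟨Units.mk0 w hw0, hw, hwu⟩

end Fermat.Agent.S55.H69
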