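import Fermat.Agent.S55.H69.UnitLat

/-!
# Program C / C3 leaf L4, abstract core (helper69): the groups `V j = 1 + ϖ^j M`, norm and trace

In the setting `UnitData G O ϖ θ N` of `UnitLat.lean`:
* `Vset j = 1 + ϖ^j M` is closed under multiplication, inversion and the action of `G` for
  `j ≥ N + 1`, contains `1 + ϖ^k O` for `k ≥ j + N`, and `V h j hj : Subgroup Lˣ`;
* the norm `nm x = ∏_g g • x`, its expansion `∏ (1 + c t_g) = 1 + c ∑ t_g + c² E`;
* fixed elements of `M` are `R`-multiples of the trace of `θ`; the trace of a combination.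
-/

set_option autoImplicit false

namespace Fermat.Agent.S55.H69

variable {L : Type*} [Field L] {G : Type*} [Group G] [Fintype G] [MulSemiringAction G L]

/-- The set `1 + ϖ^j M`. -/
def Vset (G : Type*) [Group G] [Fintype G] [MulSemiringAction G L] (O : Subring L) (ϖ θ : L)
    (j : ℕ) : Set L :=
  {u | ∃ m ∈ lat G O θ, u = 1 + ϖ ^ j * m}

/-- The norm `∏_g g • x`. -/
def nm (G : Type*) [Group G] [Fintype G] [MulSemiringAction G L] : L →* L where
  toFun x := ∏ g : G, g • x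
  map_one' := by simp
  map_mul' x y := by simp only [smul_mul', Finset.prod_mul_distrib]

theorem nm_apply (x : L) : nm G x = ∏ g : G, g • x := rfl

theorem smul_nm (h : G) (x : L) : h • nm G x = nm G x := by
  simp only [nm_apply, Finset.smul_prod', ← mul_smul]
  exact Fintype.prod_equiv (Equiv.mulLeft h) _ _ (fun g => rfl)

theorem nm_smul (h : G) (x : L) : nm G (h • x) = nm G x := by
  simp only [nm_apply, ← mul_smul]
  exact Fintype.prod_equiv (Equiv.mulRight h) _ _ (fun g => rfl)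

/-- Expansion of a product `∏ (1 + c t_g)` modulo `c²`. -/
theorem exists_prod_one_add_eq (O : Subring L) {ι : Type*} (s : Finset ι) (c : L) (hc : c ∈ O)
    (t : ι → L) (ht : ∀ i, t i ∈ O) :
    ∃ E ∈ O, ∏ i ∈ s, (1 + c * t i) = 1 + c * ∑ i ∈ s, t i + c ^ 2 * E := by
  classical
  induction s using Finset.induction_on with
  | empty => exact ⟨0, O.zero_mem, by simp⟩
  | insert a s ha ih =>
    obtain ⟨E, hE, hEq⟩ := ih
    refine ⟨E + t a * ∑ i ∈ s, t i + c * t a * E, O.add_mem (O.add_mem hE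
      (O.mul_mem (ht a) (O.sum_mem fun i _ => ht i))) (O.mul_mem (O.mul_mem hc (ht a)) hE), ?_⟩
    rw [Finset.prod_insert ha, Finset.sum_insert ha, hEq]
    ring

namespace UnitData

variable {O : Subring L} {ϖ θ : L} {N : ℕ}

theorem one_mem_Vset (j : ℕ) : (1 : L) ∈ Vset G O ϖ θ j :=
  ⟨0, (lat G O θ).zero_mem, by simp⟩

theorem Vset_subset (h : UnitData G O ϖ θ N) {j : ℕ} {u : L} (hu : u ∈ Vset G O ϖ θ j) : u ∈ O := by
  obtain ⟨m, hm, rfl⟩ := hu
  exact O.add_mem O.one_mem (O.mul_mem (h.pi_pow_mem j) (h.lat_le hm))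

/-- `1 + ϖ^k O ⊆ V j` for `k ≥ j + N`. -/
theorem one_add_mem_Vset (h : UnitData G O ϖ θ N) {j k : ℕ} (hk : j + N ≤ k) {e : L}
    (he : e ∈ O) : 1 + ϖ ^ k * e ∈ Vset G O ϖ θ j := by
  obtain ⟨d, rfl⟩ := Nat.exists_eq_add_of_le hk
  refine ⟨ϖ ^ (N + d) * e, h.pi_pow_mul_mem_lat' (Nat.le_add_right N d) he, ?_⟩
  ring

theorem Vset_succ_subset (h : UnitData G O ϖ θ N) {j : ℕ} {u : L}
    (hu : u ∈ Vset G O ϖ θ (j + 1)) : u ∈ Vset G O ϖ θ j := by
  obtain ⟨m, hm, rfl⟩ := hu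
  exact ⟨ϖ * m, fixed_mul_mem_lat h.pi_mem_fixed hm, by ring⟩

theorem Vset_add_subset (h : UnitData G O ϖ θ N) {j : ℕ} (k : ℕ) {u : L}
    (hu : u ∈ Vset G O ϖ θ (j + k)) : u ∈ Vset G O ϖ θ j := by
  induction k with
  | zero => exact hu
  | succ k ih => exact ih (h.Vset_succ_subset hu)

theorem Vset_mono (h : UnitData G O ϖ θ N) {j j' : ℕ} (hjj : j ≤ j') {u : L}
    (hu : u ∈ Vset G O ϖ θ j') : u ∈ Vset G O ϖ θ j := by
  obtain ⟨d, rfl⟩ := Nat.exists_eq_add_of_le hjj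
  exact h.Vset_add_subset d hu

theorem mul_mem_Vset (h : UnitData G O ϖ θ N) {j : ℕ} (hj : N ≤ j) {u u' : L}
    (hu : u ∈ Vset G O ϖ θ j) (hu' : u' ∈ Vset G O ϖ θ j) : u * u' ∈ Vset G O ϖ θ j := by
  obtain ⟨m, hm, rfl⟩ := hu
  obtain ⟨m', hm', rfl⟩ := hu'
  refine ⟨m + m' + ϖ ^ j * (m * m'), (lat G O θ).add_mem ((lat G O θ).add_mem hm hm')
    (h.pi_pow_mul_mem_lat' hj (O.mul_mem (h.lat_le hm) (h.lat_le hm'))), ?_⟩
  ring

theorem ne_zero_of_mem_Vset (h : UnitData G O ϖ θ N) {j : ℕ} (hj : 1 ≤ j) {u : L}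
    (hu : u ∈ Vset G O ϖ θ j) : u ≠ 0 := by
  obtain ⟨m, hm, rfl⟩ := hu
  obtain ⟨d, rfl⟩ := Nat.exists_eq_add_of_le hj
  have h1 : 1 + ϖ ^ (1 + d) * m = 1 + ϖ * (ϖ ^ d * m) := by ring
  rw [h1]
  exact h.one_add_ne_zero (O.mul_mem (h.pi_pow_mem d) (h.lat_le hm))

theorem inv_mem_O_of_mem_Vset (h : UnitData G O ϖ θ N) {j : ℕ} (hj : 1 ≤ j) {u : L}
    (hu : u ∈ Vset G O ϖ θ j) : u⁻¹ ∈ O := by
  obtain ⟨m, hm, rfl⟩ := hu
  obtain ⟨d, rfl⟩ := Nat.exists_eq_add_of_le hj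
  have h1 : 1 + ϖ ^ (1 + d) * m = 1 + ϖ * (ϖ ^ d * m) := by ring
  rw [h1]
  exact h.inv_mem (O.mul_mem (h.pi_pow_mem d) (h.lat_le hm))

theorem inv_mem_Vset (h : UnitData G O ϖ θ N) {j : ℕ} (hj : N ≤ j) (hj1 : 1 ≤ j) {u : L}
    (hu : u ∈ Vset G O ϖ θ j) : u⁻¹ ∈ Vset G O ϖ θ j := by
  have hu0 := h.ne_zero_of_mem_Vset hj1 hu
  have huinv := h.inv_mem_O_of_mem_Vset hj1 hu
  obtain ⟨m, hm, rfl⟩ := hu
  refine ⟨-m + ϖ ^ j * (m * m * (1 + ϖ ^ j * m)⁻¹), (lat G O θ).add_mem ((lat G O θ).neg_mem hm)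
    (h.pi_pow_mul_mem_lat' hj (O.mul_mem (O.mul_mem (h.lat_le hm) (h.lat_le hm)) huinv)), ?_⟩
  field_simp
  ring

theorem smul_mem_Vset (h : UnitData G O ϖ θ N) {j : ℕ} {u : L} (hu : u ∈ Vset G O ϖ θ j)
    (g : G) : g • u ∈ Vset G O ϖ θ j := by
  obtain ⟨m, hm, rfl⟩ := hu
  refine ⟨g • m, smul_mem_lat hm g, ?_⟩
  rw [smul_add, smul_one, smul_mul', h.smul_pi_pow]

theorem prod_mem_Vset (h : UnitData G O ϖ θ N) {j : ℕ} (hj : N ≤ j) {ι : Type*} (s : Finset ι)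
    (u : ι → L) (hu : ∀ i ∈ s, u i ∈ Vset G O ϖ θ j) : ∏ i ∈ s, u i ∈ Vset G O ϖ θ j := by
  classical
  induction s using Finset.induction_on with
  | empty => simpa using one_mem_Vset (G := G) (O := O) (ϖ := ϖ) (θ := θ) j
  | insert a s ha ih =>
    rw [Finset.prod_insert ha]
    exact h.mul_mem_Vset hj (hu a (Finset.mem_insert_self a s))
      (ih fun i hi => hu i (Finset.mem_insert_of_mem hi))

theorem nm_mem_Vset (h : UnitData G O ϖ θ N) {j : ℕ} (hj : N ≤ j) {u : L}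
    (hu : u ∈ Vset G O ϖ θ j) : nm G u ∈ Vset G O ϖ θ j :=
  h.prod_mem_Vset hj Finset.univ _ fun g _ => h.smul_mem_Vset hu g

/-- The subgroup `V j = 1 + ϖ^j M` of `Lˣ`, for `j ≥ N + 1`. -/
def V (h : UnitData G O ϖ θ N) (j : ℕ) (hj : N + 1 ≤ j) : Subgroup Lˣ where
  carrier := {u | (u : L) ∈ Vset G O ϖ θ j}
  mul_mem' := by
    intro u u' hu hu'
    show ((u * u' : Lˣ) : L) ∈ Vset G O ϖ θ j
    rw [Units.val_mul]
    exact h.mul_mem_Vset (by omega) hu hu'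
  one_mem' := by
    show ((1 : Lˣ) : L) ∈ Vset G O ϖ θ j
    rw [Units.val_one]
    exact one_mem_Vset j
  inv_mem' := by
    intro u hu
    show ((u⁻¹ : Lˣ) : L) ∈ Vset G O ϖ θ j
    rw [Units.val_inv_eq_inv_val]
    exact h.inv_mem_Vset (by omega) (by omega) hu

theorem mem_V (h : UnitData G O ϖ θ N) {j : ℕ} (hj : N + 1 ≤ j) {u : Lˣ} :
    u ∈ h.V j hj ↔ (u : L) ∈ Vset G O ϖ θ j := Iff.rfl

end UnitData

/-! ### Traces and fixed elements of the lattice -/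

/-- The trace of a combination with fixed coefficients. -/
theorem sum_smul_comb (θ : L) (a : G → L) (hfix : ∀ g h : G, h • a g = a g) :
    ∑ h : G, h • comb G θ a = (∑ g, a g) * ∑ g : G, g • θ := by
  have h1 : ∀ h : G, h • comb G θ a = ∑ g, a (h⁻¹ * g) * g • θ := fun h => smul_comb θ a hfix h
  simp only [h1]
  rw [Finset.sum_comm, Finset.mul_sum]
  refine Finset.sum_congr rfl fun g _ => ?_
  rw [← Finset.sum_mul]
  congr 1
  exact Fintype.sum_equiv ((Equiv.inv G).trans (Equiv.mulRight g)) _ _ (fun h => rfl)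

namespace UnitData

variable {O : Subring L} {ϖ θ : L} {N : ℕ}

/-- A `G`-fixed element of `M` is an `R`-multiple of the trace of `θ`. -/
theorem exists_eq_mul_trace_of_fixed (h : UnitData G O ϖ θ N) {m : L} (hm : m ∈ lat G O θ)
    (hfix : ∀ g : G, g • m = m) : ∃ r ∈ fixedO G O, m = r * ∑ g : G, g • θ := by
  obtain ⟨a, ha, rfl⟩ := hm
  have hafix : ∀ g k : G, k • a g = a g := fun g k => (ha g).2 k
  have hconst : ∀ g : G, a g = a 1 := by
    intro g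
    have h1 := hfix g
    rw [smul_comb θ a hafix g] at h1
    have h2 : comb G θ (fun x => a (g⁻¹ * x) - a x) = 0 := by
      have : (fun x => a (g⁻¹ * x) - a x) = (fun x => a (g⁻¹ * x)) + -a := by
        funext x; simp [sub_eq_add_neg]
      rw [this, comb_add, comb_neg, h1, add_neg_cancel]
    have h3 := h.indep _ (fun x k => by rw [smul_sub, hafix, hafix]) h2 g
    rw [inv_mul_cancel, sub_eq_zero] at h3
    exact h3.symm
  refine ⟨a 1, ha 1, ?_⟩
  simp only [comb, Finset.mul_sum]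
  exact Finset.sum_congr rfl fun g _ => by rw [hconst g]

end UnitData

end Fermat.Agent.S55.H69
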