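import Mathlib

/-!
# Program C / C3 leaf L4, abstract core (helper69): the unit groups `1 + ϖ^j M`

Setting (`UnitData`): a field `L` with an action of a finite group `G` by field automorphisms,
a `G`-stable subring `O` (the integers), a nonzero `G`-fixed `ϖ ∈ O` such that `O` is `ϖ`-adically
complete and separated (elementary form), and `θ ∈ O` whose conjugates are linearly independent
over the fixed elements and span a lattice `M = ∑_g R (g • θ)` (`R = O^G`) with `ϖ^N O ⊆ M`.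

This file: the lattice `M`, the unit groups `V j = 1 + ϖ^j M` (`j ≥ N`) as subgroups of `Lˣ`,
their stability under `G`, and `1 + ϖ^(j+N) O ⊆ V j`.
-/

set_option autoImplicit false

namespace Fermat.Agent.S55.H69

variable {L : Type*} [Field L] {G : Type*} [Group G] [Fintype G] [MulSemiringAction G L]

/-- The hypotheses of the abstract unit-cohomology computation. -/
structure UnitData (G : Type*) [Group G] [Fintype G] [MulSemiringAction G L]
    (O : Subring L) (ϖ θ : L) (N : ℕ) : Prop where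
  smul_mem : ∀ (g : G) (x : L), x ∈ O → g • x ∈ O
  pi_mem : ϖ ∈ O
  pi_ne : ϖ ≠ 0
  pi_fixed : ∀ g : G, g • ϖ = ϖ
  complete : ∀ y : ℕ → L, (∀ k, y k ∈ O) →
    ∃ z ∈ O, ∀ k, ∃ c ∈ O, z - ∑ j ∈ Finset.range k, ϖ ^ j * y j = ϖ ^ k * c
  separated : ∀ z ∈ O, (∀ k, ∃ c ∈ O, z = ϖ ^ k * c) → z = 0
  theta_mem : θ ∈ O
  indep : ∀ a : G → L, (∀ g h : G, h • a g = a g) → ∑ g, a g * g • θ = 0 → ∀ g, a g = 0
  open_lat : ∀ x ∈ O, ∃ a : G → L, (∀ g, a g ∈ O) ∧ (∀ g h : G, h • a g = a g) ∧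
    ϖ ^ N * x = ∑ g, a g * g • θ

/-- The `G`-fixed elements of `O`. -/
def fixedO (G : Type*) [Group G] [MulSemiringAction G L] (O : Subring L) : Subring L where
  carrier := {x | x ∈ O ∧ ∀ g : G, g • x = x}
  mul_mem' := by
    rintro x y ⟨hx, hx'⟩ ⟨hy, hy'⟩
    exact ⟨O.mul_mem hx hy, fun g => by rw [smul_mul', hx' g, hy' g]⟩
  one_mem' := ⟨O.one_mem, fun g => smul_one g⟩
  add_mem' := by
    rintro x y ⟨hx, hx'⟩ ⟨hy, hy'⟩
    exact ⟨O.add_mem hx hy, fun g => by rw [smul_add, hx' g, hy' g]⟩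
  zero_mem' := ⟨O.zero_mem, fun g => smul_zero g⟩
  neg_mem' := by
    rintro x ⟨hx, hx'⟩
    exact ⟨O.neg_mem hx, fun g => by rw [smul_neg, hx' g]⟩

theorem mem_fixedO {O : Subring L} {x : L} : x ∈ fixedO G O ↔ x ∈ O ∧ ∀ g : G, g • x = x :=
  Iff.rfl

/-- The combination `∑_g a g * g • θ`. -/
def comb (G : Type*) [Group G] [Fintype G] [MulSemiringAction G L] (θ : L) (a : G → L) : L :=
  ∑ g, a g * g • θ

theorem comb_add (θ : L) (a b : G → L) : comb G θ (a + b) = comb G θ a + comb G θ b := by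
  simp only [comb, Pi.add_apply, add_mul, Finset.sum_add_distrib]

theorem comb_neg (θ : L) (a : G → L) : comb G θ (-a) = -comb G θ a := by
  simp only [comb, Pi.neg_apply, neg_mul, Finset.sum_neg_distrib]

theorem comb_zero (θ : L) : comb G θ (0 : G → L) = 0 := by
  simp only [comb, Pi.zero_apply, zero_mul, Finset.sum_const_zero]

theorem comb_mul_left (θ : L) (r : L) (a : G → L) :
    comb G θ (fun g => r * a g) = r * comb G θ a := by
  simp only [comb, Finset.mul_sum, mul_assoc]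

/-- The action of `G` on a combination with fixed coefficients. -/
theorem smul_comb (θ : L) (a : G → L) (hfix : ∀ g h : G, h • a g = a g) (h : G) :
    h • comb G θ a = comb G θ (fun g => a (h⁻¹ * g)) := by
  simp only [comb, Finset.smul_sum, smul_mul', hfix, ← mul_smul]
  exact Fintype.sum_equiv (Equiv.mulLeft h) _ _ (fun g => by simp)

/-- The lattice `M = ∑_g R (g • θ)`, `R = O^G`. -/
def lat (G : Type*) [Group G] [Fintype G] [MulSemiringAction G L] (O : Subring L) (θ : L) :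
    AddSubgroup L where
  carrier := {m | ∃ a : G → L, (∀ g, a g ∈ fixedO G O) ∧ m = comb G θ a}
  add_mem' := by
    rintro m m' ⟨a, ha, rfl⟩ ⟨a', ha', rfl⟩
    exact ⟨a + a', fun g => (fixedO G O).add_mem (ha g) (ha' g), (comb_add θ a a').symm⟩
  zero_mem' := ⟨0, fun _ => (fixedO G O).zero_mem, (comb_zero θ).symm⟩
  neg_mem' := by
    rintro m ⟨a, ha, rfl⟩
    exact ⟨-a, fun g => (fixedO G O).neg_mem (ha g), (comb_neg θ a).symm⟩

theorem mem_lat {O : Subring L} {θ m : L} :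
    m ∈ lat G O θ ↔ ∃ a : G → L, (∀ g, a g ∈ fixedO G O) ∧ m = comb G θ a := Iff.rfl

namespace UnitData

variable {O : Subring L} {ϖ θ : L} {N : ℕ}

theorem pi_mem_fixed (h : UnitData G O ϖ θ N) : ϖ ∈ fixedO G O := ⟨h.pi_mem, h.pi_fixed⟩

theorem pi_pow_mem_fixed (h : UnitData G O ϖ θ N) (k : ℕ) : ϖ ^ k ∈ fixedO G O :=
  (fixedO G O).pow_mem h.pi_mem_fixed k

theorem pi_pow_mem (h : UnitData G O ϖ θ N) (k : ℕ) : ϖ ^ k ∈ O := O.pow_mem h.pi_mem k

theorem pi_pow_ne (h : UnitData G O ϖ θ N) (k : ℕ) : ϖ ^ k ≠ 0 := pow_ne_zero k h.pi_ne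

theorem smul_pi_pow (h : UnitData G O ϖ θ N) (g : G) (k : ℕ) : g • ϖ ^ k = ϖ ^ k := by
  rw [smul_pow', h.pi_fixed]

/-- `M ⊆ O`. -/
theorem lat_le (h : UnitData G O ϖ θ N) {m : L} (hm : m ∈ lat G O θ) : m ∈ O := by
  obtain ⟨a, ha, rfl⟩ := hm
  exact O.sum_mem fun g _ => O.mul_mem (ha g).1 (h.smul_mem g θ h.theta_mem)

/-- `M` is an `R`-module. -/
theorem fixed_mul_mem_lat {r m : L} (hr : r ∈ fixedO G O) (hm : m ∈ lat G O θ) :
    r * m ∈ lat G O θ := by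
  obtain ⟨a, ha, rfl⟩ := hm
  exact ⟨fun g => r * a g, fun g => (fixedO G O).mul_mem hr (ha g), (comb_mul_left θ r a).symm⟩

/-- `M` is `G`-stable. -/
theorem smul_mem_lat {m : L} (hm : m ∈ lat G O θ) (g : G) : g • m ∈ lat G O θ := by
  obtain ⟨a, ha, rfl⟩ := hm
  exact ⟨fun x => a (g⁻¹ * x), fun x => ha _, smul_comb θ a (fun x y => (ha x).2 y) g⟩

/-- `θ ∈ M`, and more generally `r * θ ∈ M` for `r ∈ R`. -/
theorem fixed_mul_theta_mem {r : L} (hr : r ∈ fixedO G O) : r * θ ∈ lat G O θ := by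
  classical
  refine ⟨fun g => if g = 1 then r else 0, fun g => ?_, ?_⟩
  · by_cases hg : g = 1
    · simp only [hg, if_true]; exact hr
    · simp only [hg, if_false]; exact (fixedO G O).zero_mem
  · simp only [comb, ite_mul, zero_mul, Finset.sum_ite_eq', Finset.mem_univ, if_true, one_smul]

theorem smul_theta_mem (g : G) : g • θ ∈ lat G O θ := by
  have h1 : (1 : L) * θ ∈ lat G O θ := fixed_mul_theta_mem (fixedO G O).one_mem
  rw [one_mul] at h1
  exact smul_mem_lat h1 g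

/-- `ϖ^N O ⊆ M`. -/
theorem pi_pow_mul_mem_lat (h : UnitData G O ϖ θ N) {x : L} (hx : x ∈ O) :
    ϖ ^ N * x ∈ lat G O θ := by
  obtain ⟨a, haO, hafix, hax⟩ := h.open_lat x hx
  exact ⟨a, fun g => ⟨haO g, fun k => hafix g k⟩, hax⟩

/-- `ϖ^k O ⊆ M` for `k ≥ N`. -/
theorem pi_pow_mul_mem_lat' (h : UnitData G O ϖ θ N) {k : ℕ} (hk : N ≤ k) {x : L} (hx : x ∈ O) :
    ϖ ^ k * x ∈ lat G O θ := by
  obtain ⟨d, rfl⟩ := Nat.exists_eq_add_of_le hk
  have h1 : ϖ ^ (N + d) * x = ϖ ^ d * (ϖ ^ N * x) := by ring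
  rw [h1]
  exact fixed_mul_mem_lat (h.pi_pow_mem_fixed d) (h.pi_pow_mul_mem_lat hx)

/-- Elements `1 + ϖ c`, `c ∈ O`, are units of `O`. -/
theorem exists_mul_eq_one (h : UnitData G O ϖ θ N) {c : L} (hc : c ∈ O) :
    ∃ v ∈ O, (1 + ϖ * c) * v = 1 := by
  obtain ⟨z, hz, hzk⟩ := h.complete (fun k => (-c) ^ k) (fun k => O.pow_mem (O.neg_mem hc) k)
  refine ⟨z, hz, ?_⟩
  have h0 : (1 + ϖ * c) * z - 1 = 0 := by
    refine h.separated _ (O.sub_mem (O.mul_mem (O.add_mem O.one_mem (O.mul_mem h.pi_mem hc)) hz)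
      O.one_mem) fun k => ?_
    obtain ⟨d, hd, hdk⟩ := hzk k
    refine ⟨(1 + ϖ * c) * d - (-c) ^ k, O.sub_mem (O.mul_mem (O.add_mem O.one_mem
      (O.mul_mem h.pi_mem hc)) hd) (O.pow_mem (O.neg_mem hc) k), ?_⟩
    have h1 : ∑ j ∈ Finset.range k, ϖ ^ j * (-c) ^ j = ∑ j ∈ Finset.range k, (-(ϖ * c)) ^ j :=
      Finset.sum_congr rfl fun j _ => by rw [← mul_pow, mul_neg]
    have h2 : (-(ϖ * c) - 1) * ∑ j ∈ Finset.range k, (-(ϖ * c)) ^ j = (-(ϖ * c)) ^ k - 1 :=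
      mul_geom_sum _ _
    have h3 : z = ∑ j ∈ Finset.range k, (-(ϖ * c)) ^ j + ϖ ^ k * d := by
      rw [← h1, ← hdk]; ring
    have h4 : (-(ϖ * c)) ^ k = ϖ ^ k * (-c) ^ k := by rw [← mul_pow, mul_neg]
    calc (1 + ϖ * c) * z - 1
        = -((-(ϖ * c) - 1) * ∑ j ∈ Finset.range k, (-(ϖ * c)) ^ j) + (1 + ϖ * c) * (ϖ ^ k * d)
            - 1 := by rw [h3]; ring
      _ = ϖ ^ k * ((1 + ϖ * c) * d - (-c) ^ k) := by rw [h2, h4]; ring
  exact sub_eq_zero.mp h0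

/-- The inverse of `1 + ϖ c` lies in `O`. -/
theorem inv_mem (h : UnitData G O ϖ θ N) {c : L} (hc : c ∈ O) : (1 + ϖ * c)⁻¹ ∈ O := by
  obtain ⟨v, hv, hv1⟩ := h.exists_mul_eq_one hc
  have : (1 + ϖ * c)⁻¹ = v := inv_eq_of_mul_eq_one_right hv1
  rw [this]
  exact hv

theorem one_add_ne_zero (h : UnitData G O ϖ θ N) {c : L} (hc : c ∈ O) : 1 + ϖ * c ≠ 0 := by
  obtain ⟨v, -, hv1⟩ := h.exists_mul_eq_one hc
  intro h0
  rw [h0, zero_mul] at hv1
  exact zero_ne_one hv1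

end UnitData

end Fermat.Agent.S55.H69
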